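import Fermat.Agent.S33.SM.Bridge.MkCtx
import Fermat.Agent.GS.Inst.Data

/-!
# S33-SM, bridge: `ResAll` from `GS.Inst.res_of_mem`
-/

set_option autoImplicit false
set_option synthInstance.maxHeartbeats 400000

noncomputable section

namespace Fermat.Agent.S33.SM

open Fermat.Agent.GR Fermat.Agent.GR.E Fermat.Agent.GR.D.Vert ModularCurve

theorem resAll {A : ValuationSubring Qbar} {p M0 : ℕ} [Fact p.Prime] (hM0 : M0 ≠ 0)
    (hpM : ¬ p ∣ M0) (hA : A.LiesOverPrime p) : ResAll A p M0 := by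
  intro L _ ϖ hϖ w hw z h1 h2
  obtain ⟨ι⟩ := GS.nonempty_Qbar_hom
  haveI : NeZero M0 := ⟨hM0⟩
  haveI := charP_RL (L := L) hA
  exact GS.Inst.res_of_mem (ι.comp (algebraMap L Qbar)) (Fact.out : p.Prime) hpM hϖ hw z h1 h2

end Fermat.Agent.S33.SM
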