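import Fermat.Agent.S33.SM.Bridge.Basic

/-!
# S33-SM, bridge between `(L, R)` and `Q̄`: the two translations

* `congP_of_coeff` (down).  `a - b = ϖ ^ i g0` with `g0 : L((q))`, `IsInt R g0` (its coefficients are
  the `r`'s, which lie in `A ∩ L`); `b` is primitive since `a` is and `i > 0`;
  `(a / b - 1) / ϖ ^ i = g0 / b`, so `IsGInt R` holds with `s = b`, `y = g0`
  (`congP_gaussO_iff`; `GR.D.Vert.exists_embL_eq`, `redL_ne_zero_of_isPrim`; model:
  `GR.E.BR7_isGaussInt`).
* `depthAt_of_dep` (up).  `c z ^ p u = 1 + ϖ ^ i g`, `g ∈ gaussO`; `gaussO_spec`: `g s = f` with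
  `f, s ∈ FF L N`, `IsInt R f`, `IsPrim R s`; `a := upS (s + C ϖ ^ i f)`, `b := upS s`;
  `a / b = C c (upS z) ^ p upS u` and `c` is a `p`-th power in `Q̄` (`kummerEquiv_C_mul`).
-/

set_option autoImplicit false
set_option synthInstance.maxHeartbeats 400000

noncomputable section

namespace Fermat.Agent.S33.SM

open Fermat.Agent.GR Fermat.Agent.GR.E Fermat.Agent.GR.D.Vert Fermat.Agent.LP.Dep Fermat.Agent.LP
  ModularCurve

variable {A : ValuationSubring Qbar} {L : IntermediateField ℚ Qbar}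

variable [IsDiscreteValuationRing (RL A L)]

/-- an element of `𝔪_A ∩ L` is divisible by the uniformizer. -/
theorem exists_eq_mul_of_mem_nonunits {ϖ : RL A L} (hϖ : Irreducible ϖ) {d : Qbar} (hdL : d ∈ L)
    (hd : d ∈ A.nonunits) : ∃ r ∈ A, r ∈ L ∧ d = ((ϖ : L) : Qbar) * r := by
  let d' : RL A L := ⟨⟨d, hdL⟩, A.nonunits_subset hd⟩
  have hd' : d' ∈ IsLocalRing.maximalIdeal (RL A L) := by
    rw [IsLocalRing.mem_maximalIdeal, mem_nonunits_iff]
    intro hu
    obtain ⟨u, hu⟩ := hu.exists_right_inv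
    have h1 : d * (((u : L) : Qbar)) = 1 := by
      have := congrArg (fun t : RL A L => (((t : L) : Qbar))) hu
      simpa using this
    have h2 : d * (((u : L) : Qbar)) ∈ A.nonunits := by
      rw [ValuationSubring.mem_nonunits_iff] at hd ⊢
      rw [map_mul]
      exact mul_lt_one_of_lt_of_le hd ((A.valuation_le_one_iff _).2 u.2)
    rw [h1, ValuationSubring.mem_nonunits_iff, map_one] at h2
    exact lt_irrefl _ h2
  rw [hϖ.maximalIdeal_eq, Ideal.mem_span_singleton] at hd'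
  obtain ⟨x, hx⟩ := hd'
  refine ⟨(((x : L) : Qbar)), x.2, (x : L).2, ?_⟩
  have := congrArg (fun t : RL A L => (((t : L) : Qbar))) hx
  simpa using this

theorem Dict_unif_ne_zero {ϖ : RL A L} (hϖ : Irreducible ϖ) : (ϖ : L) ≠ 0 := fun h =>
  hϖ.ne_zero (Subtype.ext h)

theorem Dict_C_ne_zero {ϖ : RL A L} (hϖ : Irreducible ϖ) :
    (HahnSeries.C (algebraMap (RL A L) L ϖ) : LaurentSeries L) ≠ 0 := by
  intro h
  exact Dict_unif_ne_zero hϖ (HahnSeries.C_injective (h.trans (map_zero _).symm))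

/-- `y + ϖ ^ i y'` has the same reduction as `y`. -/
theorem Dict_redL_add {i : ℕ} (hi : 0 < i) {ϖ : RL A L} (hϖ : Irreducible ϖ)
    (y y' : LaurentSeries (RL A L)) :
    Fermat.Agent.S28.redL (RL A L) (y + HahnSeries.C ϖ ^ i * y') =
      Fermat.Agent.S28.redL (RL A L) y := by
  rw [map_add, map_mul, map_pow, redL_C_eq_zero hϖ, zero_pow hi.ne', zero_mul, add_zero]

theorem Dict_isPrim_embL {y : LaurentSeries (RL A L)}
    (hy : Fermat.Agent.S28.redL (RL A L) y ≠ 0) :
    IsPrim (RL A L) (Fermat.Agent.S28.embL (RL A L) L y) :=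
  (isPrim_incl_iff (RL A L) y).mpr hy

/-- (down) -/
theorem congP_of_coeff {N i : ℕ} (hi : 0 < i) {ϖ : RL A L} (hϖ : Irreducible ϖ) (a b : FF L N)
    (hpa : IsPrim A (upS L (a : LaurentSeries L))) (hib : IsInt A (upS L (b : LaurentSeries L)))
    (h : ∀ m : ℤ, ∃ r ∈ A, (upS L (a : LaurentSeries L)).coeff m
      - (upS L (b : LaurentSeries L)).coeff m = ((ϖ : L) : Qbar) ^ i * r) :
    b ≠ 0 ∧ CongP ϖ (gaussO (RL A L) N) i (a / b) 1 := by
  have hϖ0 := Dict_unif_ne_zero hϖ
  have hC0 := Dict_C_ne_zero hϖ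
  have hpa' : IsPrim (RL A L) (a : LaurentSeries L) := (isPrim_upS_iff _).mp hpa
  have hib' : IsInt (RL A L) (b : LaurentSeries L) := (isInt_upS_iff _).mp hib
  set g0 : LaurentSeries L := ((a : LaurentSeries L) - (b : LaurentSeries L)) /
    HahnSeries.C (algebraMap (RL A L) L ϖ) ^ i with hg0
  have hg0' : (a : LaurentSeries L) - (b : LaurentSeries L) =
      HahnSeries.C (algebraMap (RL A L) L ϖ) ^ i * g0 := by
    rw [hg0]
    field_simp
  have hig : IsInt (RL A L) g0 := by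
    intro m
    obtain ⟨r, hr, hm⟩ := h m
    have h1 := congrArg (fun f : LaurentSeries L => f.coeff m) hg0'
    simp only [← map_pow, HahnSeries.C_mul_eq_smul, HahnSeries.coeff_smul, smul_eq_mul,
      HahnSeries.coeff_sub] at h1
    have h2 : ((ϖ : L) : Qbar) ^ i * ((g0.coeff m : L) : Qbar) = ((ϖ : L) : Qbar) ^ i * r := by
      rw [← hm]
      have := congrArg (algebraMap L Qbar) h1
      rw [map_sub, map_mul, map_pow] at this
      exact this.symm
    have h3 : ((ϖ : L) : Qbar) ≠ 0 := fun h0 => hϖ0 (Subtype.ext h0)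
    have h4 : ((g0.coeff m : L) : Qbar) = r := mul_left_cancel₀ (pow_ne_zero i h3) h2
    show ((g0.coeff m : L) : Qbar) ∈ A
    rw [h4]
    exact hr
  obtain ⟨ya, hya⟩ := exists_embL_eq hpa'.1
  obtain ⟨yb, hyb⟩ := exists_embL_eq hib'
  obtain ⟨yg, hyg⟩ := exists_embL_eq hig
  have hrel : ya = yb + HahnSeries.C ϖ ^ i * yg := by
    apply embL_injective (RL A L) L
    rw [map_add, map_mul, map_pow, coeffMap_C, hya, hyb, hyg, ← hg0']
    ring
  have hra : Fermat.Agent.S28.redL (RL A L) ya ≠ 0 := redL_ne_zero_of_isPrim (hya ▸ hpa')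
  have hrb : Fermat.Agent.S28.redL (RL A L) yb ≠ 0 := by
    rw [hrel, Dict_redL_add hi hϖ] at hra
    exact hra
  have hb0' : (b : LaurentSeries L) ≠ 0 := by
    intro h0
    apply hrb
    have : yb = 0 := embL_injective (RL A L) L (by rw [hyb, h0, map_zero])
    rw [this, map_zero]
  refine ⟨fun h0 => hb0' (by rw [h0]; rfl), ?_⟩
  rw [congP_gaussO_iff]
  refine ⟨yb, yg, hrb, ?_⟩
  rw [hyb, hyg, hg0, IntermediateField.coe_div, IntermediateField.coe_one]
  field_simp

/-- (up) -/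
theorem depthAt_of_dep {N i p : ℕ} (hp : 0 < p) (hi : 0 < i) {ϖ : RL A L} (hϖ : Irreducible ϖ)
    {u : FF L N} (h : Dep L ϖ (gaussO (RL A L) N) p i u) :
    DepthAt N p A (((ϖ : L) : Qbar) ^ i) (upS L (u : LaurentSeries L)) := by
  obtain ⟨c, z, hc, hz, hcong⟩ := h
  have hϖ0 := Dict_unif_ne_zero hϖ
  have hC0 := Dict_C_ne_zero hϖ
  obtain ⟨f, s, hf, hs, hif, hps, hgs⟩ := (gaussO_spec (RL A L) N _).mp hcong
  rw [IntermediateField.coe_div, AddSubgroupClass.coe_sub, IntermediateField.coe_pow,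
    coe_algebraMap_C, IntermediateField.coe_mul, IntermediateField.coe_mul,
    IntermediateField.coe_pow, IntermediateField.coe_one] at hgs
  have hcC : ((algebraMap L (FF L N) c : FF L N) : LaurentSeries L) = HahnSeries.C c := by
    show algebraMap L (LaurentSeries L) c = HahnSeries.C c
    rw [algebraMap_laurentSeries_eq_single]
    rfl
  rw [hcC] at hgs
  obtain ⟨ys, hys⟩ := exists_embL_eq hps.1
  obtain ⟨yf, hyf⟩ := exists_embL_eq hif
  have hrs : Fermat.Agent.S28.redL (RL A L) ys ≠ 0 := redL_ne_zero_of_isPrim (hys ▸ hps)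
  have hs0 : s ≠ 0 := by
    intro h0
    apply hrs
    have : ys = 0 := embL_injective (RL A L) L (by rw [hys, h0, map_zero])
    rw [this, map_zero]
  set a0 : LaurentSeries L := s + HahnSeries.C (algebraMap (RL A L) L ϖ) ^ i * f with ha0
  have ha0e : Fermat.Agent.S28.embL (RL A L) L (ys + HahnSeries.C ϖ ^ i * yf) = a0 := by
    rw [map_add, map_mul, map_pow, coeffMap_C, hys, hyf]
  have hpa0 : IsPrim (RL A L) a0 := by
    rw [← ha0e]
    exact Dict_isPrim_embL (by rw [Dict_redL_add hi hϖ]; exact hrs)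
  have ha0mem : a0 ∈ FF L N :=
    add_mem hs (mul_mem (pow_mem (C_mem_FF _) i) hf)
  have hquot : a0 / s = HahnSeries.C c * (z : LaurentSeries L) ^ p * (u : LaurentSeries L) := by
    rw [ha0, ← hgs]
    field_simp
    ring
  refine ⟨upS L a0, upS L s, upS_mem_FF.mpr ha0mem, upS_mem_FF.mpr hs, (isPrim_upS_iff _).mpr hpa0,
    (isInt_upS_iff _).mpr hps.1, fun m => ?_, ?_⟩
  · refine ⟨((f.coeff m : L) : Qbar), hif m, ?_⟩
    rw [← HahnSeries.coeff_sub, ← map_sub, ha0, add_sub_cancel_left, ← map_pow,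
      HahnSeries.C_mul_eq_smul, coeffMap_coeff, HahnSeries.coeff_smul, smul_eq_mul, map_mul,
      map_pow]
    rfl
  · rw [← map_div₀, hquot, map_mul, map_mul, map_pow, upS_C]
    have hc' : ((c : L) : Qbar) ≠ 0 := fun h0 => hc (Subtype.ext h0)
    refine (kummerEquiv_C_mul hp hc' (upS L (u : LaurentSeries L))).trans
      ⟨upS L (z : LaurentSeries L), upS_mem_FF.mpr z.2, ?_, by ring⟩
    intro h0
    apply hz
    apply Subtype.ext
    show (z : LaurentSeries L) = 0
    exact upS_injective L (h0.trans (map_zero _).symm)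

end Fermat.Agent.S33.SM
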