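import Fermat.Agent.S33.SM.Bridge.Basic
import Fermat.Agent.GS.Bridge.Level

/-!
# S33-SM, bridge: a normal number field over which finitely many data are defined
-/

set_option autoImplicit false
set_option synthInstance.maxHeartbeats 400000

noncomputable section

namespace Fermat.Agent.S33.SM

open Fermat.Agent.GR Fermat.Agent.GR.E ModularCurve

/-- a normal intermediate field is mapped onto itself by every automorphism. -/
theorem map_eq_of_normal (L : IntermediateField ℚ Qbar) [Normal ℚ L] (σ : Qbar ≃ₐ[ℚ] Qbar) :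
    L.map σ.toAlgHom = L := by
  have hnorm : Normal ℚ Qbar :=
    @IsAlgClosure.normal ℚ (AlgebraicClosure ℚ) _ _ (AlgebraicClosure.instAlgebra ℚ) _
  exact IntermediateField.normal_iff_forall_map_eq.1 ‹Normal ℚ L› σ.toAlgHom

/-- finitely many series (of two levels) and finitely many constants are defined over a normal
number field.  (`GS.exists_level_normal` twice, `IntermediateField.adjoin` of the constants,
`⊔`, `IntermediateField.normalClosure`, `GR.E.BR3_mono`.) -/
theorem exists_normal_field (N0 N1 : ℕ) (s0 s1 : Finset (LaurentSeries Qbar))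
    (hs0 : ∀ u ∈ s0, u ∈ FF Qbar N0) (hs1 : ∀ u ∈ s1, u ∈ FF Qbar N1) (t : Finset Qbar) :
    ∃ L : IntermediateField ℚ Qbar, FiniteDimensional ℚ L ∧ Normal ℚ L ∧
      (∀ u ∈ s0, ∃ u' : FF L N0, upS L (u' : LaurentSeries L) = u) ∧
      (∀ u ∈ s1, ∃ u' : FF L N1, upS L (u' : LaurentSeries L) = u) ∧ ∀ c ∈ t, c ∈ L := by
  obtain ⟨L0, hfin0, -, hL0⟩ := GS.exists_level_normal N0 s0 hs0
  obtain ⟨L1, hfin1, -, hL1⟩ := GS.exists_level_normal N1 s1 hs1
  have halg : Algebra.IsAlgebraic ℚ Qbar := AlgebraicClosure.isAlgebraic ℚ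
  have hnorm : Normal ℚ Qbar :=
    @IsAlgClosure.normal ℚ (AlgebraicClosure ℚ) _ _ (AlgebraicClosure.instAlgebra ℚ) _
  have hfin2 : FiniteDimensional ℚ (IntermediateField.adjoin ℚ (t : Set Qbar)) :=
    IntermediateField.finiteDimensional_adjoin
      fun c _ => (Algebra.IsAlgebraic.isAlgebraic c).isIntegral
  have hfin01 : FiniteDimensional ℚ (L0 ⊔ L1 : IntermediateField ℚ Qbar) :=
    IntermediateField.finiteDimensional_sup L0 L1
  have hfinM : FiniteDimensional ℚ
      (L0 ⊔ L1 ⊔ IntermediateField.adjoin ℚ (t : Set Qbar) : IntermediateField ℚ Qbar) :=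
    IntermediateField.finiteDimensional_sup _ _
  have hle := (L0 ⊔ L1 ⊔ IntermediateField.adjoin ℚ (t : Set Qbar)).le_normalClosure
  refine ⟨IntermediateField.normalClosure ℚ
      (L0 ⊔ L1 ⊔ IntermediateField.adjoin ℚ (t : Set Qbar) : IntermediateField ℚ Qbar) Qbar,
    normalClosure.is_finiteDimensional ℚ _ Qbar, normalClosure.normal ℚ _ Qbar, ?_, ?_, ?_⟩
  · intro u hu
    obtain ⟨u', hu', h⟩ := BR3_mono N0 ((le_sup_left.trans le_sup_left).trans hle) (hL0 u hu)
    exact ⟨⟨u', hu'⟩, h⟩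
  · intro u hu
    obtain ⟨u', hu', h⟩ := BR3_mono N1 ((le_sup_right.trans le_sup_left).trans hle) (hL1 u hu)
    exact ⟨⟨u', hu'⟩, h⟩
  · intro c hc
    exact hle (le_sup_right (a := L0 ⊔ L1)
      (IntermediateField.subset_adjoin ℚ (t : Set Qbar) (Finset.mem_coe.2 hc)))

end Fermat.Agent.S33.SM
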