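import Fermat.Agent.S33.SM.Bridge.MkCtx
import Fermat.Agent.S33.SM.Bridge.Field
import Fermat.Agent.S33.SM.Bridge.Dict
import Fermat.Agent.S33.Ram0

/-!
# S33-SM, bridge: `DeepAt` with all data defined over `L`, and its translation to `(L, R)`
-/

set_option autoImplicit false
set_option synthInstance.maxHeartbeats 400000

noncomputable section

namespace Fermat.Agent.S33.SM

open Fermat.Agent.GR Fermat.Agent.GR.E Fermat.Agent.GR.D.Vert Fermat.Agent.LP.Dep Fermat.Agent.LP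
  ModularCurve

/-- `DeepAt N p A y` with all the data defined over `L`. -/
def DeepOver (L : IntermediateField ℚ Qbar) (N p : ℕ) (A : ValuationSubring Qbar)
    (y : LaurentSeries Qbar) : Prop :=
  ∃ ζ' d : Qbar, ζ' ∈ L ∧ d ∈ L ∧ IsPrimitiveRoot ζ' p ∧ d ∈ A.nonunits ∧
    ∃ a b w : FF L N, IsPrim A (upS L (a : LaurentSeries L)) ∧ IsInt A (upS L (b : LaurentSeries L)) ∧
      (∀ m : ℤ, ∃ r ∈ A, (upS L (a : LaurentSeries L)).coeff m - (upS L (b : LaurentSeries L)).coeff m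
        = (ζ' - 1) ^ p * d * r) ∧ w ≠ 0 ∧
      upS L (a : LaurentSeries L) / upS L (b : LaurentSeries L) = y * upS L (w : LaurentSeries L) ^ p

variable {A : ValuationSubring Qbar} {L : IntermediateField ℚ Qbar} {p M0 : ℕ} [Fact p.Prime]
  [IsDiscreteValuationRing (RL A L)]


/-- the primitive root of `X` in `Q̄`. -/
theorem Over_prim (X : Ctx L (RL A L) p M0) :
    IsPrimitiveRoot ((((X.ζ : RL A L) : L) : Qbar)) p := by
  have h1 := X.prim'
  have h2 : IsPrimitiveRoot (((X.ζ : RL A L) : L)) p :=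
    h1.map_of_injective (f := (RL A L).subtype) Subtype.val_injective
  exact h2.map_of_injective (f := algebraMap L Qbar) (algebraMap L Qbar).injective

theorem Over_assoc (X : Ctx L (RL A L) p M0) :
    ∃ c c' : Qbar, c ∈ A ∧ c' ∈ A ∧
      ((((X.ζ : RL A L) : L) : Qbar) - 1) * c = (((X.ϖ : RL A L) : L) : Qbar) ^ X.e1 ∧
      (((X.ϖ : RL A L) : L) : Qbar) ^ X.e1 * c' = (((X.ζ : RL A L) : L) : Qbar) - 1 := by
  obtain ⟨u, hu⟩ := X.assoc
  have h1 : ((((X.ζ : RL A L) : L) : Qbar) - 1) * (((u : RL A L) : L) : Qbar) =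
      (((X.ϖ : RL A L) : L) : Qbar) ^ X.e1 := by
    have := congrArg (fun x : RL A L => ((x : L) : Qbar)) hu
    simpa using this
  have h2 : (((u : RL A L) : L) : Qbar) * ((((u⁻¹ : (RL A L)ˣ) : RL A L) : L) : Qbar) = 1 := by
    exact congrArg (fun x : RL A L => ((x : L) : Qbar)) u.mul_inv
  refine ⟨(((u : RL A L) : L) : Qbar), ((((u⁻¹ : (RL A L)ˣ) : RL A L) : L) : Qbar),
    (u : RL A L).2, ((u⁻¹ : (RL A L)ˣ) : RL A L).2, h1, ?_⟩
  rw [← h1, mul_assoc, h2, mul_one]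

theorem Over_varpi_mem_nonunits (X : Ctx L (RL A L) p M0) :
    (((X.ϖ : RL A L) : L) : Qbar) ∈ A.nonunits := by
  have h1 : ((X.ϖ : RL A L) : L) ∈ (RL A L).nonunits := by
    rw [ValuationSubring.mem_nonunits_iff_exists_mem_maximalIdeal]
    exact ⟨X.ϖ.2, by
      rw [IsLocalRing.mem_maximalIdeal, mem_nonunits_iff]
      exact X.irr.not_isUnit⟩
  exact (BR7_mem_nonunits_comap (algebraMap L Qbar) A _).1 h1

/-- `(ζ' - 1) ^ p d` is divisible by `ϖ ^ (p e1 + 1)`.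
(`S33.Ram_val_eq`: `v(ζ' - 1) = v(ζ - 1)`; `X.assoc`; `exists_eq_mul_of_mem_nonunits`.) -/
theorem exists_eq_pow_mul (X : Ctx L (RL A L) p M0) {ζ' d : Qbar} (hζ' : IsPrimitiveRoot ζ' p)
    (hdL : d ∈ L) (hd : d ∈ A.nonunits) :
    ∃ r ∈ A, (ζ' - 1) ^ p * d = (((X.ϖ : RL A L) : L) : Qbar) ^ (p * X.e1 + 1) * r := by
  have hp : p.Prime := Fact.out
  obtain ⟨-, c', -, hc', -, h2⟩ := Over_assoc X
  obtain ⟨r, hr, -, hdr⟩ := exists_eq_mul_of_mem_nonunits X.irr hdL hd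
  have hζ := Over_prim X
  have hval := Fermat.Agent.S33.Ram_val_eq A hp hζ hζ'
  have hne : (((X.ζ : RL A L) : L) : Qbar) - 1 ≠ 0 := sub_ne_zero.2 (hζ.ne_one hp.one_lt)
  have hu : (ζ' - 1) / ((((X.ζ : RL A L) : L) : Qbar) - 1) ∈ A := by
    rw [← A.valuation_le_one_iff, map_div₀, ← neg_sub 1 ζ', ← neg_sub 1 (((X.ζ : RL A L) : L) : Qbar),
      Valuation.map_neg, Valuation.map_neg, hval, div_self]
    rw [Ne, map_eq_zero, sub_eq_zero]
    exact (hζ.ne_one hp.one_lt).symm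
  refine ⟨(c' * ((ζ' - 1) / ((((X.ζ : RL A L) : L) : Qbar) - 1))) ^ p * r,
    A.mul_mem _ _ (A.toSubring.pow_mem (A.mul_mem _ _ hc' hu) p) hr, ?_⟩
  have h3 : ζ' - 1 = (((X.ϖ : RL A L) : L) : Qbar) ^ X.e1 *
      (c' * ((ζ' - 1) / ((((X.ζ : RL A L) : L) : Qbar) - 1))) := by
    rw [← mul_assoc, h2, mul_div_cancel₀ _ hne]
  conv_lhs => rw [h3, hdr]
  rw [mul_pow, ← pow_mul, pow_succ, mul_comm X.e1 p]
  ring

/-- conversely `ϖ ^ (p e1 + 1) = (ζ - 1) ^ p d` with `d ∈ 𝔪_A`. -/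
theorem exists_pow_eq_mul (X : Ctx L (RL A L) p M0) :
    ∃ d ∈ A.nonunits, (((X.ϖ : RL A L) : L) : Qbar) ^ (p * X.e1 + 1)
      = ((((X.ζ : RL A L) : L) : Qbar) - 1) ^ p * d := by
  obtain ⟨c, -, hc, -, h1, -⟩ := Over_assoc X
  refine ⟨c ^ p * (((X.ϖ : RL A L) : L) : Qbar), ?_, ?_⟩
  · have h2 := Over_varpi_mem_nonunits X
    rw [ValuationSubring.mem_nonunits_iff] at h2 ⊢
    rw [map_mul]
    exact lt_of_le_of_lt (mul_le_of_le_one_left' ((A.valuation_le_one_iff _).2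
      (A.toSubring.pow_mem hc p))) h2
  · rw [pow_succ, mul_comm p, pow_mul, ← h1, mul_pow, mul_assoc]


theorem Over_key {x x' : FF L M0} {a b w : FF L (p * M0)}
    (heq : upS L (a : LaurentSeries L) / upS L (b : LaurentSeries L) =
      upS L (x : LaurentSeries L) / qExpand Qbar p (upS L (x' : LaurentSeries L)) *
        upS L (w : LaurentSeries L) ^ p) :
    w ^ p * (GS.Inst.incl L p M0 x / PhiFF L p M0 x') = a / b := by
  apply Subtype.ext
  apply upS_injective L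
  rw [IntermediateField.coe_mul, IntermediateField.coe_pow,
    IntermediateField.coe_div, IntermediateField.coe_div, map_mul, map_pow, map_div₀, map_div₀,
    heq, GS.Inst.coe_incl, coe_PhiFF, upS_qExpand, mul_comm]

theorem Over_linked_iff (X : Ctx L (RL A L) p M0) (x x' : FF L M0) :
    X.ops.Linked X.e1 x x' ↔
      Dep L X.ϖ (gaussO (RL A L) (p * M0)) p (p * X.e1 + 1)
        (GS.Inst.incl L p M0 x / PhiFF L p M0 x') := Iff.rfl

set_option maxHeartbeats 1000000 in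
/-- a deep class over `L` gives `Linked`. -/
theorem linked_of_deepOver (X : Ctx L (RL A L) p M0) {x x' : FF L M0} (hx' : x' ≠ 0)
    (h : DeepOver L (p * M0) p A
      (upS L (x : LaurentSeries L) / qExpand Qbar p (upS L (x' : LaurentSeries L)))) :
    X.ops.Linked X.e1 x x' := by
  obtain ⟨ζ', d, -, hdL, hζ', hd, a, b, w, hpa, hib, hab, hw, heq⟩ := h
  obtain ⟨r0, hr0, hr0'⟩ := exists_eq_pow_mul X hζ' hdL hd
  obtain ⟨-, hc⟩ := congP_of_coeff (i := p * X.e1 + 1) (Nat.succ_pos _) X.irr a b hpa hib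
    (fun m => by
      obtain ⟨r, hr, hr'⟩ := hab m
      exact ⟨r0 * r, A.mul_mem _ _ hr0 hr, by rw [hr', hr0', mul_assoc]⟩)
  rw [Over_linked_iff]
  refine ⟨1, w, one_ne_zero, hw, ?_⟩
  rw [map_one, one_mul, Over_key heq]
  exact hc

/-- a class which is trivial at the Gauss valuation, with data over `L`, has depth `≥ 1`. -/
theorem dep_one_of_cong (X : Ctx L (RL A L) p M0) (a b : FF L M0)
    (hpa : IsPrim A (upS L (a : LaurentSeries L))) (hib : IsInt A (upS L (b : LaurentSeries L)))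
    (hab : Cong A (upS L (a : LaurentSeries L)) (upS L (b : LaurentSeries L))) :
    b ≠ 0 ∧ a ≠ 0 ∧ Dep L X.ϖ (gaussO (RL A L) M0) p 1 (a / b) := by
  have hcoef : ∀ m : ℤ, ∃ r ∈ A, (upS L (a : LaurentSeries L)).coeff m
      - (upS L (b : LaurentSeries L)).coeff m = (((X.ϖ : RL A L) : L) : Qbar) ^ 1 * r := by
    intro m
    have hL : (upS L (a : LaurentSeries L)).coeff m - (upS L (b : LaurentSeries L)).coeff m ∈ L := by
      rw [coeffMap_coeff, coeffMap_coeff]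
      exact L.sub_mem (SetLike.coe_mem _) (SetLike.coe_mem _)
    obtain ⟨r, hr, -, h⟩ := exists_eq_mul_of_mem_nonunits X.irr hL (hab m)
    exact ⟨r, hr, by rw [pow_one]; exact h⟩
  obtain ⟨hb0, hc⟩ := congP_of_coeff one_pos X.irr a b hpa hib hcoef
  refine ⟨hb0, ?_, 1, 1, one_ne_zero, one_ne_zero, by simpa using hc⟩
  rintro rfl
  obtain ⟨n, hn⟩ := hpa.2
  apply hn
  rw [ValuationSubring.mem_nonunits_iff]
  simp

/-- (up) a class of depth `> p e1` over `(L, R)` is deep. -/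
theorem deepAt_of_dep (X : Ctx L (RL A L) p M0) {u : FF L M0}
    (h : Dep L X.ϖ (gaussO (RL A L) M0) p (p * X.e1 + 1) u) :
    DeepAt M0 p A (upS L (u : LaurentSeries L)) := by
  obtain ⟨d, hd, hd'⟩ := exists_pow_eq_mul X
  have h1 := depthAt_of_dep (Fact.out : p.Prime).pos (Nat.succ_pos _) X.irr h
  rw [hd'] at h1
  exact ⟨_, d, Over_prim X, hd, h1⟩

end Fermat.Agent.S33.SM
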