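import Fermat.Agent.S33.SM.Bridge.Basic
import Fermat.Agent.GR.C.LaurentRoot

/-!
# S33-SM, bridge for (S): a `p`-th root of a series over `L` is a constant times a series over `L`

`T : L((q))`, `z : Q̄((q))`, `z ^ n = upS L T ≠ 0`.  Let `m = order z` (`n m = order T`), `c` the
leading coefficient of `T`.  `T = C c * q ^ (n m) * (1 + ...)`; by
`GR.C.exists_pow_eq_powerSeries` (over the `ℚ`-algebra `L`) there is `y : L((q))` with leading
coefficient `1` and `C c * y ^ n = T`.  Then `ρ := z / upS L y` satisfies `ρ ^ n = C c`, hence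
`(ρ / C d) ^ n = 1` for an `n`-th root `d` of `c` in `Q̄`; an `n`-th root of unity of the field
`Q̄((q))` is a constant (`X ^ n - 1` splits over the constants: e.g. `IsPrimitiveRoot` +
`IsPrimitiveRoot.eq_pow_of_pow_eq_one` in the domain `Q̄((q))` for `C μ`, `μ` a primitive `n`-th root
of unity of `Q̄`).  So `z = C e * upS L y`.
-/

set_option autoImplicit false

noncomputable section

namespace Fermat.Agent.S33.SM

open Fermat.Agent.GR ModularCurve

/-- an `n`-th root of unity in `Q̄((q))` is a constant. -/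
theorem exists_C_of_pow_eq_one {n : ℕ} (hn : 0 < n) {ρ : LaurentSeries Qbar} (h : ρ ^ n = 1) :
    ∃ μ : Qbar, μ ^ n = 1 ∧ ρ = HahnSeries.C μ := by
  haveI : NeZero n := ⟨hn.ne'⟩
  haveI : NeZero (n : Qbar) := ⟨by exact_mod_cast hn.ne'⟩
  obtain ⟨μ0, hμ0⟩ := HasEnoughRootsOfUnity.exists_primitiveRoot Qbar n
  have hC : IsPrimitiveRoot (HahnSeries.C μ0 : LaurentSeries Qbar) n :=
    hμ0.map_of_injective (f := (HahnSeries.C : Qbar →+* LaurentSeries Qbar))
      HahnSeries.C_injective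
  obtain ⟨i, -, hi⟩ := hC.eq_pow_of_pow_eq_one h
  refine ⟨μ0 ^ i, ?_, ?_⟩
  · rw [← pow_mul, mul_comm, pow_mul, hμ0.pow_eq_one, one_pow]
  · rw [map_pow, hi]

theorem exists_root_over {L : IntermediateField ℚ Qbar} {n : ℕ} (hn : 0 < n) {T : LaurentSeries L}
    (hT : T ≠ 0) {z : LaurentSeries Qbar} (hz : z ^ n = upS L T) :
    ∃ (c : L) (y : LaurentSeries L) (e : Qbar), c ≠ 0 ∧ y ≠ 0 ∧ e ≠ 0 ∧ T = HahnSeries.C c * y ^ n ∧
      z = HahnSeries.C e * upS L y := by
  classical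
  have hord : T.order = n * z.order := by
    have h1 := congrArg HahnSeries.order hz
    rw [HahnSeries.order_pow, C.coeffMap_order, nsmul_eq_mul] at h1
    exact h1.symm
  obtain ⟨c, hc⟩ : ∃ c : L, c = T.coeff T.order := ⟨_, rfl⟩
  have hc0 : c ≠ 0 := fun h => hT (HahnSeries.coeff_order_eq_zero.mp (hc ▸ h))
  obtain ⟨P, hP⟩ : ∃ P : PowerSeries L, P = LaurentSeries.powerSeriesPart T := ⟨_, rfl⟩
  have hPc : PowerSeries.constantCoeff P = c := by
    rw [← PowerSeries.coeff_zero_eq_constantCoeff_apply, hP, LaurentSeries.powerSeriesPart_coeff]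
    simp [hc]
  obtain ⟨g, -, hg⟩ := C.exists_pow_eq_powerSeries (R := L) n hn.ne' (PowerSeries.C c⁻¹ * P) (by
    rw [map_mul, hPc, PowerSeries.constantCoeff_C, inv_mul_cancel₀ hc0])
  obtain ⟨y, hy⟩ : ∃ y : LaurentSeries L,
      y = HahnSeries.single z.order 1 * HahnSeries.ofPowerSeries ℤ L g := ⟨_, rfl⟩
  have hCC : (HahnSeries.C c : LaurentSeries L) * HahnSeries.C c⁻¹ = 1 := by
    rw [← map_mul, mul_inv_cancel₀ hc0, map_one]
  have hTy : T = HahnSeries.C c * y ^ n := by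
    rw [hy, mul_pow, HahnSeries.single_pow, ← map_pow, hg, one_pow, map_mul,
      HahnSeries.ofPowerSeries_C, nsmul_eq_mul, ← hord, hP]
    conv_lhs => rw [← LaurentSeries.single_order_mul_powerSeriesPart T]
    calc _ = ((HahnSeries.C c : LaurentSeries L) * HahnSeries.C c⁻¹) *
          (HahnSeries.single T.order 1 *
            HahnSeries.ofPowerSeries ℤ L (LaurentSeries.powerSeriesPart T)) := by
          rw [hCC, one_mul]
      _ = _ := by ring
  have hy0 : y ≠ 0 := by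
    intro h0
    apply hT
    rw [hTy, h0, zero_pow hn.ne', mul_zero]
  have huy0 : upS L y ≠ 0 := (map_ne_zero (upS L)).mpr hy0
  obtain ⟨d, hd⟩ := IsAlgClosed.exists_pow_nat_eq (c : Qbar) hn
  have hcQ : (c : Qbar) ≠ 0 := fun h => hc0 (Subtype.ext h)
  have hd0 : d ≠ 0 := by
    intro h0
    rw [h0, zero_pow hn.ne'] at hd
    exact hcQ hd.symm
  have hCd0 : (HahnSeries.C d : LaurentSeries Qbar) ≠ 0 :=
    (map_ne_zero (HahnSeries.C : Qbar →+* LaurentSeries Qbar)).mpr hd0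
  have h1 : (z / (HahnSeries.C d * upS L y)) ^ n = 1 := by
    have e : (HahnSeries.C d : LaurentSeries Qbar) ^ n = HahnSeries.C (c : Qbar) := by
      rw [← map_pow, hd]
    rw [div_pow, mul_pow, hz, hTy, map_mul, map_pow, upS_C, e]
    exact div_self (mul_ne_zero ((map_ne_zero (HahnSeries.C : Qbar →+* LaurentSeries Qbar)).mpr hcQ)
      (pow_ne_zero n huy0))
  obtain ⟨μ, hμ, hρ⟩ := exists_C_of_pow_eq_one hn h1
  have hμ0 : μ ≠ 0 := by
    intro h0
    rw [h0, zero_pow hn.ne'] at hμ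
    exact zero_ne_one hμ
  refine ⟨c, y, μ * d, hc0, hy0, mul_ne_zero hμ0 hd0, hTy, ?_⟩
  rw [map_mul, mul_assoc, ← hρ, div_mul_cancel₀ _ (mul_ne_zero hCd0 huy0)]

end Fermat.Agent.S33.SM
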