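import Fermat.Agent.S33.SM.Bridge.SField
import Fermat.Agent.S33.SM.Bridge.SRoot
import Fermat.Agent.S33.SM.Bridge.Over
import Fermat.Agent.S33.Iface
import Fermat.Agent.GR.C.FixedRep
import Fermat.Agent.Lib.Frobenius
import Fermat.Agent.GR.B.Export

/-!
# S33-SM: theorem (S) = `S33.SSCrux`

* `killed_of_kummerEquiv`.  `heckeMulT p ζ (upS L u) = upS L (Φ u * U u)` (`upS_qExpand`, `upS_normT`,
  `coe_PhiFF`, `coe_UFF`; `X.ops.Φ = PhiFF L p M0`, `X.ops.U = UFF ..` by `rfl`; the unit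
  `Units.map _ X.ζL` of `Q̄` equals `ζ` by `Units.ext`).  It is `z ^ p`, `z ∈ FF Q̄ M0`.
  `exists_root_over` gives `c`, `y`, `e` with `Φ u * U u = C c * y ^ p` and `z = C e * upS L y`, so
  `upS L y ∈ FF Q̄ M0 ≤ FF Q̄ (p * M0)`, `y ∈ FF L (p * M0)` (`upS_mem_FF`).
* `ssCrux`.  `GR.C.exists_fixed_rep_Qbar` gives `w ~ u` fixed by all `τ ∈ I'`;
  `GR.C.exists_coeffField` gives a number field `L0` containing the coefficients of `w`,
  `L0 ≤ fixI A ζ`.  A Frobenius element `σ`, `exists_field_S`, `isDiscreteValuationRing_comap`,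
  `exists_irreducible_sub_one`, `exists_ctx` give `X` with `X.ϖ = ζ - 1`; hence `X.e1 = 1`
  (`e1_eq_one`).  `w = upS L w'` (`exists_FF_of_coeff_mem`).  `T_p w ~ T_p u ~ 1`
  (`heckeMulT` preserves `KummerEquiv M0 p`: `GR.B.heckeMulT_mem_FF_Qbar`, `heckeMulT_mul`).
  `killed_of_kummerEquiv`, `Ctx.S_conc`, `deepAt_of_dep`, `SmoothCruxP`.
-/

set_option autoImplicit false
set_option synthInstance.maxHeartbeats 400000

noncomputable section

namespace Fermat.Agent.S33.SM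

open Fermat.Agent.GR Fermat.Agent.GR.E Fermat.Agent.GR.D.Vert Fermat.Agent.LP.Dep Fermat.Agent.LP
  ModularCurve

variable {A : ValuationSubring Qbar} {L : IntermediateField ℚ Qbar} {p M0 : ℕ} [Fact p.Prime]
  [IsDiscreteValuationRing (RL A L)]

theorem killed_of_kummerEquiv (X : Ctx L (RL A L) p M0) (ζ : Qbarˣ)
    (hζX : (((X.ζ : RL A L) : L) : Qbar) = ζ) {u : FF L M0} (hu0 : u ≠ 0)
    (h : KummerEquiv M0 p 1 (heckeMulT p ζ (upS L (u : LaurentSeries L)))) : X.ops.Killed u := by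
  haveI := X.ne
  have hp : 0 < p := (Fact.out : p.Prime).pos
  obtain ⟨z, hz, hz0, e⟩ := h
  rw [one_mul] at e
  have hζ' : Units.map (algebraMap L Qbar : L →* Qbar) X.ζL = ζ := Units.ext hζX
  obtain ⟨T, hT⟩ : ∃ T : LaurentSeries L,
      T = qExpand L p (u : LaurentSeries L) * normT p X.ζL (u : LaurentSeries L) := ⟨_, rfl⟩
  have hup : upS L T = z ^ p := by
    rw [hT, map_mul, upS_qExpand, upS_normT, hζ', ← e]
    rfl
  have hT0 : T ≠ 0 := by
    intro h0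
    rw [h0, map_zero] at hup
    exact pow_ne_zero p hz0 hup.symm
  obtain ⟨c, y, e', hc, hy, he', hTy, hzy⟩ := exists_root_over hp hT0 hup.symm
  have hCe : (HahnSeries.C e' : LaurentSeries Qbar) ≠ 0 := by
    intro h0
    apply hz0
    rw [hzy, h0, zero_mul]
  have hy1 : upS L y ∈ FF Qbar M0 := by
    have h1 : upS L y = z / HahnSeries.C e' := by rw [hzy, mul_div_cancel_left₀ _ hCe]
    rw [h1]
    exact div_mem hz (C_mem_FF e')
  have hy2 : y ∈ FF L (p * M0) :=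
    upS_mem_FF.mp (GT.EMB.FF_mono Qbar (Dvd.intro_left _ rfl) hy1)
  refine ⟨c, ⟨y, hy2⟩, hc, fun h0 => hy (congrArg Subtype.val h0), Subtype.ext ?_⟩
  change qExpand L p (u : LaurentSeries L) * normT p X.ζL (u : LaurentSeries L)
    = algebraMap L (LaurentSeries L) c * y ^ p
  rw [← kummer_C_eq_algebraMap, ← hTy, hT]

/-- if the uniformizer is `ζ - 1` then `e1 = 1`. -/
theorem e1_eq_one (X : Ctx L (RL A L) p M0)
    (h : (((X.ϖ : RL A L) : L) : Qbar) = (((X.ζ : RL A L) : L) : Qbar) - 1) : X.e1 = 1 := by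
  have h1 : X.ϖ = (X.ζ : RL A L) - 1 := by
    apply Subtype.ext
    apply Subtype.ext
    rw [h]
    rfl
  have h2 := X.assoc
  rw [← h1] at h2
  have hne : X.ϖ ≠ 0 := X.irr.ne_zero
  have hnu : ¬ IsUnit X.ϖ := X.irr.not_isUnit
  have a1 : X.ϖ ^ 1 ∣ X.ϖ ^ X.e1 := by rw [pow_one]; exact h2.dvd
  have a2 : X.ϖ ^ X.e1 ∣ X.ϖ ^ 1 := by rw [pow_one]; exact h2.symm.dvd
  have b1 := (pow_dvd_pow_iff hne hnu).mp a1
  have b2 := (pow_dvd_pow_iff hne hnu).mp a2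
  omega

omit [IsDiscreteValuationRing (RL A L)] in
theorem SMain_heckeMulT_pow (ζ : Qbarˣ) (hζ : IsPrimitiveRoot ζ p) (u : LaurentSeries Qbar)
    (n : ℕ) : heckeMulT p ζ (u ^ n) = heckeMulT p ζ u ^ n := by
  induction n with
  | zero =>
    rw [pow_zero, pow_zero]
    unfold heckeMulT
    have h := normT_C p ζ (1 : Qbar)
    rw [map_one, one_pow, map_one] at h
    rw [map_one, h, one_mul]
  | succ n ih => rw [pow_succ, pow_succ, heckeMulT_mul p ζ hζ, ih]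

theorem kummerEquiv_heckeMulT [NeZero M0] (hpM : ¬ p ∣ M0) (ζ : Qbarˣ) (hζ : IsPrimitiveRoot ζ p)
    {u v : LaurentSeries Qbar} (h : KummerEquiv M0 p u v) :
    KummerEquiv M0 p (heckeMulT p ζ u) (heckeMulT p ζ v) := by
  obtain ⟨z, hz, hz0, rfl⟩ := h
  exact ⟨heckeMulT p ζ z, B.heckeMulT_mem_FF_Qbar p hpM ζ hζ hz, heckeMulT_ne_zero p ζ hζ hz0,
    by rw [heckeMulT_mul p ζ hζ, SMain_heckeMulT_pow ζ hζ]⟩

omit [IsDiscreteValuationRing (RL A L)] in
/-- **(S)** -/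
theorem ssCrux (hp2 : p ≠ 2) (hM0 : M0 ≠ 0) (hpM : ¬ p ∣ M0) (hA : A.LiesOverPrime p)
    (hcrux : SmoothCruxP p M0 A) (hres : ResAll A p M0) : S33.SSCrux p M0 A := by
  intro ζ hζ u hu hT hfix
  have hp : p.Prime := Fact.out
  haveI : NeZero M0 := ⟨hM0⟩
  have hζ' : IsPrimitiveRoot (ζ : Qbar) p :=
    hζ.map_of_injective (f := Units.coeHom Qbar) Units.val_injective
  obtain ⟨w, huw, -, hwfix⟩ := C.exists_fixed_rep_Qbar hp.pos hu.mem hu.ne_zero
  have hwK : IsKummer (N := M0) p w := by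
    obtain ⟨z, hz, hz0, rfl⟩ := huw
    exact hu.mul (isKummer_pow_self hz hz0)
  obtain ⟨L0, hL0fin, hL0c, hL0fix⟩ := C.exists_coeffField hwK.mem
  have hL0 : L0 ≤ fixI A ζ := by
    intro a ha τ hτ hτζ
    apply hL0fix τ _ a ha
    apply hwfix τ
    apply hfix τ hτ
    intro μ hμ
    obtain ⟨k, -, rfl⟩ := hζ'.eq_pow_of_pow_eq_one hμ
    rw [map_pow, hτζ]
  obtain ⟨σ, hσ⟩ := Lib.Frobenius.exists_isFrobeniusAt_of_liesOverPrime A hp hA
  obtain ⟨L, hLfin, hL0L, hζL, hLfix, hσL⟩ :=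
    exists_field_S hp.ne_zero hζ' hσ.mem_decompositionSubgroup L0 hL0
  haveI := hLfin
  haveI : IsDiscreteValuationRing (RL A L) := isDiscreteValuationRing_comap A p hp hA L
  obtain ⟨ϖ, hϖ, hϖζ⟩ := exists_irreducible_sub_one hp hA hζ' hζL hLfix
  obtain ⟨X, hXϖ, hXζ⟩ := exists_ctx hM0 hpM hA hres ϖ hϖ hζ' hζL hσ hσL
  have he1 : X.e1 = 1 := e1_eq_one X (by rw [hXϖ, hϖζ, hXζ])
  obtain ⟨w', hw'⟩ := exists_FF_of_coeff_mem hwK.mem (fun n => hL0L (hL0c n))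
  have hw'0 : w' ≠ 0 := by
    intro h0
    apply hwK.ne_zero
    rw [← hw', h0]
    exact map_zero _
  have hTw : KummerEquiv M0 p 1 (heckeMulT p ζ (upS L (w' : LaurentSeries L))) := by
    rw [hw']
    exact hT.trans (kummerEquiv_heckeMulT hpM ζ hζ huw)
  have hk := killed_of_kummerEquiv X ζ hXζ hw'0 hTw
  have hd := X.S_conc hp2 he1 hw'0 hk
  have hdeep := deepAt_of_dep X hd
  rw [hw'] at hdeep
  exact (hcrux w hwK hdeep).trans huw.symm

end Fermat.Agent.S33.SM
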