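import Fermat.Agent.S33.SM.Conc.Defs
import Fermat.Agent.LP.Dep.Inst
import Fermat.Agent.LP.Defs
import Fermat.Agent.GR.E.BR7

/-!
# S33-SM, bridge between `(L, R)` and `Q̄`: dictionary

`L` an intermediate field of `Q̄ / ℚ`, `R = RL A L = A ∩ L` (assumed to be a DVR),
`upS L : L((q)) → Q̄((q))`.

* `resAut L σ h` : the restriction to `L` of an automorphism `σ` of `Q̄` with `σ L = L`.
* `congP_of_coeff` (down): a coefficientwise congruence `a ≡ b mod ϖ ^ i` between integral series
  gives `CongP ϖ (gaussO R N) i (a / b) 1`.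
* `depthAt_of_dep` (up): `Dep L ϖ (gaussO R N) p i u` gives `LP.DepthAt N p A (ϖ ^ i) (upS L u)`.
-/

set_option autoImplicit false
set_option synthInstance.maxHeartbeats 400000

noncomputable section

namespace Fermat.Agent.S33.SM

open Fermat.Agent.GR Fermat.Agent.GR.E Fermat.Agent.GR.D.Vert Fermat.Agent.LP.Dep Fermat.Agent.LP
  ModularCurve

/-- `A ∩ L`. -/
abbrev RL (A : ValuationSubring Qbar) (L : IntermediateField ℚ Qbar) : ValuationSubring L :=
  A.comap (algebraMap L Qbar)

/-- `L((q)) → Q̄((q))`. -/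
abbrev upS (L : IntermediateField ℚ Qbar) : LaurentSeries L →+* LaurentSeries Qbar :=
  coeffMap (algebraMap L Qbar)

/-- the restriction to `L` of an automorphism of `Q̄` which maps `L` onto `L`. -/
def resAut (L : IntermediateField ℚ Qbar) (σ : Qbar ≃ₐ[ℚ] Qbar)
    (h : L.map σ.toAlgHom = L) : L ≃+* L :=
  ((IntermediateField.intermediateFieldMap σ L).trans (IntermediateField.equivOfEq h)).toRingEquiv

theorem coe_resAut (L : IntermediateField ℚ Qbar) (σ : Qbar ≃ₐ[ℚ] Qbar)
    (h : L.map σ.toAlgHom = L) (x : L) : ((resAut L σ h x : L) : Qbar) = σ x := rfl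

theorem upS_coeffMap_resAut (L : IntermediateField ℚ Qbar) (σ : Qbar ≃ₐ[ℚ] Qbar)
    (h : L.map σ.toAlgHom = L) (f : LaurentSeries L) :
    upS L (coeffMap (resAut L σ h : L →+* L) f) = gal σ (upS L f) := by
  ext n
  rfl

theorem upS_injective (L : IntermediateField ℚ Qbar) : Function.Injective (upS L) := by
  exact (upS L).injective

theorem upS_mem_FF {L : IntermediateField ℚ Qbar} {N : ℕ} {f : LaurentSeries L} :
    upS L f ∈ FF Qbar N ↔ f ∈ FF L N := by
  exact Fermat.Agent.GR.C.mem_FF_coeffMap_hom_iff (algebraMap L Qbar)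

/-- a series of `FF Q̄ N` with coefficients in `L` comes from `FF L N`. -/
theorem exists_FF_of_coeff_mem {L : IntermediateField ℚ Qbar} {N : ℕ} {f : LaurentSeries Qbar}
    (hf : f ∈ FF Qbar N) (hL : ∀ n, f.coeff n ∈ L) : ∃ f' : FF L N, upS L (f' : LaurentSeries L) = f := by
  let f₀ : LaurentSeries L :=
    { coeff := fun n => ⟨f.coeff n, hL n⟩
      isPWO_support' := f.isPWO_support.mono (by
        intro n hn h0
        exact hn (Subtype.ext h0)) }
  have h1 : upS L f₀ = f := by
    ext n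
    rfl
  exact ⟨⟨f₀, upS_mem_FF.1 (h1 ▸ hf)⟩, h1⟩

theorem upS_C (L : IntermediateField ℚ Qbar) (c : L) :
    upS L (HahnSeries.C c) = HahnSeries.C (c : Qbar) := by
  exact coeffMap_single (algebraMap L Qbar) 0 c

theorem upS_qExpand (L : IntermediateField ℚ Qbar) (m : ℕ) [NeZero m] (f : LaurentSeries L) :
    upS L (qExpand L m f) = qExpand Qbar m (upS L f) := by
  exact coeffMap_qExpand (algebraMap L Qbar) m f

theorem upS_normT (L : IntermediateField ℚ Qbar) (m : ℕ) [NeZero m] (ζ : Lˣ)
    (f : LaurentSeries L) :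
    upS L (normT m ζ f) = normT m (Units.map (algebraMap L Qbar : L →* Qbar) ζ) (upS L f) := by
  exact coeffMap_normT (algebraMap L Qbar) m ζ f

variable {A : ValuationSubring Qbar} {L : IntermediateField ℚ Qbar}

theorem isInt_upS_iff (f : LaurentSeries L) : IsInt A (upS L f) ↔ IsInt (RL A L) f := by
  exact Iff.rfl

theorem isPrim_upS_iff (f : LaurentSeries L) : IsPrim A (upS L f) ↔ IsPrim (RL A L) f := by
  unfold IsPrim
  rw [isInt_upS_iff]
  refine and_congr_right fun _ => exists_congr fun n => not_congr ?_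
  rw [BR7_mem_nonunits_comap]
  rfl

end Fermat.Agent.S33.SM
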