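import Fermat.Agent.S33.SM.Bridge.Over
import Fermat.Agent.LP.Dep.DepthQ

/-!
# S33-SM, bridge: all the data of (G) are defined over one normal number field (bookkeeping)

For `z ∈ Z` unfold `GS.TrivAt M0 p A z`: `a z, b z`.  `V z := a z / b z ~ z`.  By `DeepAt.congr`
`V z / Φ (V (s z))` is deep at level `p * M0` (`Φ = qExpand Q̄ p` maps `KummerEquiv M0` to
`KummerEquiv (p * M0)`: `GT.EMB.qExpand_mem_FF`); unfold `DeepAt`, `DepthAt`, `KummerEquiv`:
`ζ' z, d z, a' z, b' z, w' z`.  Apply `exists_normal_field` to the finite sets of all these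
(`Z` is finite: `Set.Finite.toFinset`, `Finset.image`).
-/

set_option autoImplicit false
set_option synthInstance.maxHeartbeats 400000

noncomputable section

namespace Fermat.Agent.S33.SM

open Fermat.Agent.GR Fermat.Agent.GR.E Fermat.Agent.LP.Dep Fermat.Agent.LP ModularCurve

variable {A : ValuationSubring Qbar} {p M0 : ℕ} [Fact p.Prime]

theorem exists_field_G (Z : Set (LaurentSeries Qbar)) (hfin : Z.Finite)
    (htriv : ∀ u ∈ Z, GS.TrivAt M0 p A u) (s : Z → Z)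
    (hdeep : ∀ z : Z, DeepAt (p * M0) p A
      ((z : LaurentSeries Qbar) / qExpand Qbar p ((s z : Z) : LaurentSeries Qbar)))
    (t : Finset Qbar) :
    ∃ L : IntermediateField ℚ Qbar, FiniteDimensional ℚ L ∧ Normal ℚ L ∧ (∀ c ∈ t, c ∈ L) ∧
      ∃ a b : Z → FF L M0,
        (∀ z, IsPrim A (upS L (a z : LaurentSeries L)) ∧ IsInt A (upS L (b z : LaurentSeries L)) ∧
          Cong A (upS L (a z : LaurentSeries L)) (upS L (b z : LaurentSeries L)) ∧
          KummerEquiv M0 p (z : LaurentSeries Qbar)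
            (upS L ((a z / b z : FF L M0) : LaurentSeries L))) ∧
        ∀ z, DeepOver L (p * M0) p A
          (upS L ((a z / b z : FF L M0) : LaurentSeries L)
            / qExpand Qbar p (upS L ((a (s z) / b (s z) : FF L M0) : LaurentSeries L))) := by
  classical
  have : Fintype Z := hfin.fintype
  have h1 : ∀ z : Z, ∃ a b c : LaurentSeries Qbar, a ∈ FF Qbar M0 ∧ b ∈ FF Qbar M0 ∧ IsPrim A a ∧
      IsInt A b ∧ Cong A a b ∧ c ∈ FF Qbar M0 ∧ c ≠ 0 ∧
      a / b = (z : LaurentSeries Qbar) * c ^ p := by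
    intro z
    obtain ⟨a, b, ha, hb, hpa, hib, hab, c, hc, hc0, h⟩ := htriv z z.2
    exact ⟨a, b, c, ha, hb, hpa, hib, hab, hc, hc0, h⟩
  choose a₀ b₀ c₀ ha₀ hb₀ hpa₀ hib₀ hab₀ hc₀ hc₀0 hV using h1
  have h2 : ∀ z : Z, DeepAt (p * M0) p A
      (a₀ z / b₀ z / qExpand Qbar p (a₀ (s z) / b₀ (s z))) := by
    intro z
    obtain ⟨ζ, d, hζ, hd, a, b, ha, hb, hpa, hib, hc, hk⟩ := hdeep z
    refine ⟨ζ, d, hζ, hd, a, b, ha, hb, hpa, hib, hc, KummerEquiv.trans (KummerEquiv.symm ?_) hk⟩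
    refine ⟨c₀ z / qExpand Qbar p (c₀ (s z)),
      div_mem (GT.EMB.FF_mono Qbar (Dvd.intro_left p rfl) (hc₀ z))
        (GT.EMB.qExpand_mem_FF p (hc₀ (s z))),
      div_ne_zero (hc₀0 z) ((map_ne_zero _).2 (hc₀0 (s z))), ?_⟩
    rw [hV z, hV (s z), map_mul, map_pow, div_pow, mul_div_mul_comm]
  have h3 : ∀ z : Z, ∃ ζ' d : Qbar, ∃ a b w : LaurentSeries Qbar, IsPrimitiveRoot ζ' p ∧
      d ∈ A.nonunits ∧ a ∈ FF Qbar (p * M0) ∧ b ∈ FF Qbar (p * M0) ∧ IsPrim A a ∧ IsInt A b ∧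
      (∀ m : ℤ, ∃ r ∈ A, a.coeff m - b.coeff m = (ζ' - 1) ^ p * d * r) ∧
      w ∈ FF Qbar (p * M0) ∧ w ≠ 0 ∧
      a / b = (a₀ z / b₀ z / qExpand Qbar p (a₀ (s z) / b₀ (s z))) * w ^ p := by
    intro z
    obtain ⟨ζ', d, hζ', hd, a, b, ha, hb, hpa, hib, hc, w, hw, hw0, h⟩ := h2 z
    exact ⟨ζ', d, a, b, w, hζ', hd, ha, hb, hpa, hib, hc, hw, hw0, h⟩
  choose ζ' d a₁ b₁ w₁ hζ' hd ha₁ hb₁ hpa₁ hib₁ hc₁ hw₁ hw₁0 hy₁ using h3
  have hS0 : ∀ u ∈ Finset.univ.image a₀ ∪ Finset.univ.image b₀, u ∈ FF Qbar M0 := by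
    intro u hu
    simp only [Finset.mem_union, Finset.mem_image, Finset.mem_univ, true_and] at hu
    rcases hu with ⟨z, rfl⟩ | ⟨z, rfl⟩
    · exact ha₀ z
    · exact hb₀ z
  have hS1 : ∀ u ∈ Finset.univ.image a₁ ∪ Finset.univ.image b₁ ∪ Finset.univ.image w₁,
      u ∈ FF Qbar (p * M0) := by
    intro u hu
    simp only [Finset.mem_union, Finset.mem_image, Finset.mem_univ, true_and] at hu
    rcases hu with (⟨z, rfl⟩ | ⟨z, rfl⟩) | ⟨z, rfl⟩
    · exact ha₁ z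
    · exact hb₁ z
    · exact hw₁ z
  obtain ⟨L, hfd, hnorm, hs0, hs1, ht⟩ := exists_normal_field M0 (p * M0) _ _ hS0 hS1
    (t ∪ Finset.univ.image ζ' ∪ Finset.univ.image d)
  have ea : ∀ z, ∃ u' : FF L M0, upS L (u' : LaurentSeries L) = a₀ z := fun z =>
    hs0 _ (Finset.mem_union_left _ (Finset.mem_image_of_mem _ (Finset.mem_univ z)))
  have eb : ∀ z, ∃ u' : FF L M0, upS L (u' : LaurentSeries L) = b₀ z := fun z =>
    hs0 _ (Finset.mem_union_right _ (Finset.mem_image_of_mem _ (Finset.mem_univ z)))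
  have ea₁ : ∀ z, ∃ u' : FF L (p * M0), upS L (u' : LaurentSeries L) = a₁ z := fun z =>
    hs1 _ (Finset.mem_union_left _ (Finset.mem_union_left _
      (Finset.mem_image_of_mem _ (Finset.mem_univ z))))
  have eb₁ : ∀ z, ∃ u' : FF L (p * M0), upS L (u' : LaurentSeries L) = b₁ z := fun z =>
    hs1 _ (Finset.mem_union_left _ (Finset.mem_union_right _
      (Finset.mem_image_of_mem _ (Finset.mem_univ z))))
  have ew₁ : ∀ z, ∃ u' : FF L (p * M0), upS L (u' : LaurentSeries L) = w₁ z := fun z =>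
    hs1 _ (Finset.mem_union_right _ (Finset.mem_image_of_mem _ (Finset.mem_univ z)))
  choose a haE using ea
  choose b hbE using eb
  choose a' haE' using ea₁
  choose b' hbE' using eb₁
  choose w' hwE' using ew₁
  have hdiv : ∀ z, upS L ((a z / b z : FF L M0) : LaurentSeries L) = a₀ z / b₀ z := by
    intro z
    rw [IntermediateField.coe_div, map_div₀, haE, hbE]
  refine ⟨L, hfd, hnorm,
    fun c hc => ht c (Finset.mem_union_left _ (Finset.mem_union_left _ hc)), a, b,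
    fun z => ⟨by rw [haE]; exact hpa₀ z, by rw [hbE]; exact hib₀ z,
      by rw [haE, hbE]; exact hab₀ z, ?_⟩, fun z => ?_⟩
  · rw [hdiv]
    exact ⟨c₀ z, hc₀ z, hc₀0 z, hV z⟩
  · rw [hdiv, hdiv]
    refine ⟨ζ' z, d z,
      ht _ (Finset.mem_union_left _ (Finset.mem_union_right _
        (Finset.mem_image_of_mem _ (Finset.mem_univ z)))),
      ht _ (Finset.mem_union_right _ (Finset.mem_image_of_mem _ (Finset.mem_univ z))),
      hζ' z, hd z, a' z, b' z, w' z, by rw [haE']; exact hpa₁ z, by rw [hbE']; exact hib₁ z,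
      by rw [haE', hbE']; exact hc₁ z, ?_, by rw [haE', hbE', hwE']; exact hy₁ z⟩
    intro h0
    apply hw₁0 z
    rw [← hwE', h0]
    simp

end Fermat.Agent.S33.SM
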