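import Fermat.Agent.S33.SM.Bridge.Over
import Fermat.Agent.LP.Dep.Top
import Fermat.Agent.LP.Dep.Lam

/-!
# S33-SM, bridge: at the top depth the inertia group acts through the cyclotomic character

`LP.Dep.dep_succ_of_inertia` for `τ_F = mapFF (resAut L τ _) M0` on `F = FF L M0`:
* `hτ`: `congP_one_gaussO_iff` + `GS.Inst.gredFun_coeffMap_of_inertia` (+ `isGInt_coeffMap_iff`), with
  `resAut_mem_iff`, `resAut_cong` (`c = 1`), `GS.inertia_spec`;
* `hlam`: `τ (ζ - 1) = ζ ^ c - 1 = (ζ - 1) (c + (ζ - 1) t)` (`LP.Dep.exists_pow_sub_one_eq` in `R`),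
  `γ := algebraMap R F (c + (ζ - 1) t)`, `ζ - 1 ∈ ϖ R` (`X.assoc`, `(X.setting M0).e1_pos`).
Then `deepAt_of_dep` and `upS_coeffMap_resAut`.
-/

set_option autoImplicit false
set_option synthInstance.maxHeartbeats 400000

noncomputable section

namespace Fermat.Agent.S33.SM

open Fermat.Agent.GR Fermat.Agent.GR.E Fermat.Agent.GR.D.Vert Fermat.Agent.LP.Dep Fermat.Agent.LP
  ModularCurve

/-- the abstract version over `(L, R)`. -/
theorem GTop_dep_succ {L : Type} [Field L] {R : ValuationSubring L} [IsDiscreteValuationRing R]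
    {p M0 : ℕ} [Fact p.Prime] (X : Ctx L R p M0) (σ : L ≃+* L) (hσR : ∀ x, σ x ∈ R ↔ x ∈ R)
    (hσin : ∀ x ∈ R, σ x - x ∈ R.nonunits) {c : ℕ}
    (hσζ : σ ((X.ζ : R) : L) = ((X.ζ : R) : L) ^ c)
    {u : FF L M0} (hu : Dep L X.ϖ (gaussO R M0) p (p * X.e1) u) :
    Dep L X.ϖ (gaussO R M0) p (p * X.e1 + 1) (mapFF (σ : L →+* L) M0 u / u ^ c) := by
  obtain ⟨t, ht⟩ := exists_pow_sub_one_eq (X.ζ : R) c
  have hS := X.setting M0
  refine dep_succ_of_inertia hS (mapFF (σ : L →+* L) M0) ?_ ?_ c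
    (algebraMap R (FF L M0) ((c : R) + ((X.ζ : R) - 1) * t)) ?_ ?_ hu
  · intro x hx
    have hx' : mapFF (σ : L →+* L) M0 x ∈ gaussO R M0 := by
      rw [mem_gaussO, coe_mapFF]
      exact (GS.Inst.isGInt_coeffMap_iff σ hσR _).2 hx
    rw [congP_one_gaussO_iff R M0 X.irr hx' hx, coe_mapFF]
    exact GS.Inst.gredFun_coeffMap_of_inertia σ hσR hσin hx
  · intro a
    refine ⟨σ a, Subtype.ext ?_⟩
    rw [coe_mapFF, FieldsA_coe_algebraMap, FieldsA_coe_algebraMap, coeffMap_C]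
    rfl
  · obtain ⟨s, hs⟩ : X.ϖ ∣ (X.ζ : R) - 1 :=
      (hS.lam_eq.dvd_iff_dvd_right).2 (dvd_pow_self X.ϖ hS.e1_pos.ne')
    refine Pow_congP_of_eq (t := algebraMap R (FF L M0) (s * t)) (hS.base _) ?_
    rw [pow_one, ← map_mul, ← map_natCast (algebraMap R (FF L M0)) c, ← map_sub, hs]
    congr 1
    ring
  · rw [← map_mul, ← ht]
    apply Subtype.ext
    rw [coe_mapFF, coe_algebraMap_C, coe_algebraMap_C, coeffMap_C]
    congr 1
    show σ ((((X.ζ : R) - 1 : R)) : L) = ((((X.ζ : R) ^ c - 1 : R)) : L)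
    push_cast
    rw [map_sub, map_one, hσζ]

variable {A : ValuationSubring Qbar} {L : IntermediateField ℚ Qbar} {p M0 : ℕ} [Fact p.Prime]
  [IsDiscreteValuationRing (RL A L)]

theorem dep_succ_resAut (X : Ctx L (RL A L) p M0) {τ : Qbar ≃ₐ[ℚ] Qbar}
    (hτ : τ ∈ A.inertiaSubgroupIn ℚ) (hτL : L.map τ.toAlgHom = L) {c : ℕ}
    (hc : ∀ μ : Qbar, μ ^ p = 1 → τ μ = μ ^ c) {u : FF L M0}
    (hu : Dep L X.ϖ (gaussO (RL A L) M0) p (p * X.e1) u) :
    Dep L X.ϖ (gaussO (RL A L) M0) p (p * X.e1 + 1)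
      (mapFF (resAut L τ hτL : L →+* L) M0 u / u ^ c) := by
  obtain ⟨hmem, hin⟩ := GS.inertia_spec A hτ
  refine GTop_dep_succ X (resAut L τ hτL) (resAut_mem_iff hτL hmem) ?_ ?_ hu
  · intro x hx
    have := resAut_cong hτL (c := 1) (fun x hx => by rw [pow_one]; exact hin x hx) x hx
    rwa [pow_one] at this
  · apply Subtype.ext
    have hζp : ((((X.ζ : RL A L) : L) : Qbar)) ^ p = 1 := by
      have h1 := X.prim'.pow_eq_one
      have h2 := congrArg (fun r : RL A L => ((r : L) : Qbar)) h1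
      simpa using h2
    rw [coe_resAut]
    exact hc _ hζp

theorem deepAt_gal_div (X : Ctx L (RL A L) p M0) {τ : Qbar ≃ₐ[ℚ] Qbar}
    (hτ : τ ∈ A.inertiaSubgroupIn ℚ) (hτL : L.map τ.toAlgHom = L) {c : ℕ}
    (hc : ∀ μ : Qbar, μ ^ p = 1 → τ μ = μ ^ c) {u : FF L M0}
    (hu : Dep L X.ϖ (gaussO (RL A L) M0) p (p * X.e1) u) :
    DeepAt M0 p A (gal τ (upS L (u : LaurentSeries L)) / upS L (u : LaurentSeries L) ^ c) := by
  have h := deepAt_of_dep X (dep_succ_resAut X hτ hτL hc hu)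
  have e : upS L (((mapFF (resAut L τ hτL : L →+* L) M0 u / u ^ c : FF L M0)) : LaurentSeries L) =
      gal τ (upS L (u : LaurentSeries L)) / upS L (u : LaurentSeries L) ^ c := by
    rw [IntermediateField.coe_div, IntermediateField.coe_pow, map_div₀, map_pow, coe_mapFF,
      upS_coeffMap_resAut]
  rwa [e] at h

end Fermat.Agent.S33.SM
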