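import Fermat.Agent.S33.SM.Bridge.H
import Fermat.Agent.S33.SM.Bridge.GField
import Fermat.Agent.S33.SM.Bridge.GTop
import Fermat.Agent.S33.Iface
import Fermat.Agent.GR.I.Level
import Fermat.Agent.Lib.Frobenius
import Fermat.Agent.GR.E.BR5

/-!
# S33-SM: theorem (G) = `S33.GoodOrd`

Assembly.  `exists_deep_link` gives (H); choose `s : Z → Z`; `exists_field_G` (with `t = {ζ}`) gives
`L`, `a`, `b`; `GR.E.isDiscreteValuationRing_comap` gives the DVR; a uniformizer `ϖ`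
(`IsDiscreteValuationRing.exists_irreducible`); a Frobenius element `σ`
(`Lib.Frobenius.exists_isFrobeniusAt_of_liesOverPrime`), `map_eq_of_normal`; `exists_ctx` gives `X`.
`v z := a z / b z`: `dep_one_of_cong`, `linked_of_deepOver`, `Ctx.G_conc` give
`Dep (p e1) (v z)`; `deepAt_gal_div` gives `DeepAt M0 p A (gal τ V / V ^ c)`, `V = upS L (v z)`;
`gal τ V / V ^ c` is a Kummer function (`GR.I.galStable`, `IsKummer.pow`, `IsKummer.div`, and `V ~ z`
is Kummer); `SmoothCruxP` gives `1 ~ gal τ V / V ^ c`, i.e. `V ^ c ~ gal τ V`; transfer to `z` with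
`GR.I.kummerEquiv_gal` and powers of `KummerEquiv`.
-/

set_option autoImplicit false
set_option synthInstance.maxHeartbeats 400000

noncomputable section

namespace Fermat.Agent.S33.SM

open Fermat.Agent.GR Fermat.Agent.GR.E Fermat.Agent.GR.D.Vert Fermat.Agent.LP.Dep Fermat.Agent.LP
  ModularCurve

/-- a function which is `KummerEquiv` to a Kummer function is a Kummer function. -/
theorem isKummer_of_kummerEquiv {N n : ℕ} {u v : LaurentSeries Qbar} (hu : IsKummer (N := N) n u)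
    (h : KummerEquiv N n u v) : IsKummer (N := N) n v := by
  obtain ⟨z, hz, hz0, rfl⟩ := h
  exact hu.mul (isKummer_pow_self hz hz0)

theorem kummerEquiv_pow {N n : ℕ} {u v : LaurentSeries Qbar} (h : KummerEquiv N n u v) (c : ℕ) :
    KummerEquiv N n (u ^ c) (v ^ c) := by
  obtain ⟨z, hz, hz0, rfl⟩ := h
  exact ⟨z ^ c, pow_mem hz c, pow_ne_zero c hz0, by rw [mul_pow, ← pow_mul, ← pow_mul, mul_comm n c]⟩

/-- from `DeepAt (gal τ V / V ^ c)` to `z ^ c ~ gal τ z`. -/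
theorem kummerEquiv_of_deepAt {p M0 : ℕ} {A : ValuationSubring Qbar} (hcrux : SmoothCruxP p M0 A)
    {z V : LaurentSeries Qbar} (hz : IsKummer (N := M0) p z) (hzV : KummerEquiv M0 p z V)
    (τ : Qbar ≃ₐ[ℚ] Qbar) (c : ℕ) (h : DeepAt M0 p A (gal τ V / V ^ c)) :
    KummerEquiv M0 p (z ^ c) (gal τ z) := by
  have hV : IsKummer (N := M0) p V := isKummer_of_kummerEquiv hz hzV
  have hVc : V ^ c ≠ 0 := pow_ne_zero c hV.ne_zero
  have hy : IsKummer (N := M0) p (gal τ V / V ^ c) := (GR.I.galStable p τ V hV).div (hV.pow c)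
  obtain ⟨w, hw, hw0, e⟩ := hcrux _ hy h
  have h1 : KummerEquiv M0 p (V ^ c) (gal τ V) := by
    refine ⟨w, hw, hw0, ?_⟩
    rw [one_mul] at e
    rw [← e, mul_div_cancel₀ _ hVc]
  exact ((kummerEquiv_pow hzV c).trans h1).trans (GR.I.kummerEquiv_gal τ hzV).symm

/-- **(G)** -/
theorem goodOrd {p M0 : ℕ} [Fact p.Prime] (hp2 : p ≠ 2) (hM0 : M0 ≠ 0) (hpM : ¬ p ∣ M0)
    {A : ValuationSubring Qbar} (hA : A.LiesOverPrime p) (hcrux : SmoothCruxP p M0 A)
    (hres : ResAll A p M0) : S33.GoodOrd p M0 A := by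
  intro ζ hζ Z hfin hZ _ hsurj τ hτ c hc u hu
  have hp : p.Prime := Fact.out
  have : NeZero (p * M0) := ⟨mul_ne_zero hp.ne_zero hM0⟩
  have hH := exists_deep_link hA ζ hζ Z hfin
    (fun u hu => ⟨(hZ u hu).1.mem, (hZ u hu).1.ne_zero⟩) (fun u hu => (hZ u hu).2) hsurj
  choose! s' hs' using hH
  let s : Z → Z := fun z => ⟨s' z, (hs' z z.2).1⟩
  obtain ⟨L, hLfin, hLnorm, hLt, a, b, hab, hdeep⟩ := exists_field_G Z hfin
    (fun u hu => (hZ u hu).2) s (fun z => (hs' z z.2).2) {(ζ : Qbar)}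
  have := hLfin
  have := hLnorm
  have : IsDiscreteValuationRing (RL A L) := GR.E.isDiscreteValuationRing_comap A p hp hA L
  obtain ⟨ϖ, hϖ⟩ := IsDiscreteValuationRing.exists_irreducible (RL A L)
  obtain ⟨σ, hσ⟩ := Lib.Frobenius.exists_isFrobeniusAt_of_liesOverPrime A hp hA
  obtain ⟨X, -, -⟩ := exists_ctx hM0 hpM hA hres ϖ hϖ (IsPrimitiveRoot.coe_units_iff.mpr hζ)
    (hLt _ (Finset.mem_singleton_self _)) hσ (map_eq_of_normal L σ)
  have h1 := fun z => dep_one_of_cong X (a z) (b z) (hab z).1 (hab z).2.1 (hab z).2.2.1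
  have hne : ∀ z, a z / b z ≠ 0 := fun z => div_ne_zero (h1 z).2.1 (h1 z).1
  have hlink : ∀ z, X.ops.Linked X.e1 (a z / b z) (a (s z) / b (s z)) :=
    fun z => linked_of_deepOver X (hne (s z)) (hdeep z)
  have hG := X.G_conc hp2 s (fun z => a z / b z) hlink (fun z => (h1 z).2.2) ⟨u, hu⟩
  have hD := deepAt_gal_div X hτ (map_eq_of_normal L τ) hc hG
  exact kummerEquiv_of_deepAt hcrux (hZ u hu).1 (hab ⟨u, hu⟩).2.2.2 τ c hD

end Fermat.Agent.S33.SM
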