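import Fermat.Agent.LP.Dep.ContractQ
import Fermat.Agent.GT.EMB.Level

/-!
# S33-SM, bridge: statement (H) at the level of `Q̄`

`N = p * M0`, `Φ = qExpand Q̄ p`, `U = normT p ζ`, `T_p = heckeMulT p ζ = Φ · U`.  `Z` a finite set of
functions of level `M0`, trivial at the Gauss valuation, with `∀ u ∈ Z, ∃ u' ∈ Z, u ~ T_p u'`.
Then for every `u ∈ Z` there is `u' ∈ Z` with `u / Φ u'` deep at level `N`.

Paper proof.  `U (Φ x) = x ^ p` (`normT_qExpand`).  `exists_chain`, by induction on `r`: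
`u / Φ u' ~ U^[r+1] v` with `u', v ∈ Z`.  `r = 0`: `u ~ Φ u' · U u'`.  Step: `v ~ Φ v' · U v'`, so
`U^[r+1] v ~ U^[r+1] (Φ v') · U^[r+2] v'` and `U^[r+1] (Φ v') = U^[r] (v' ^ p) = (U^[r] v') ^ p ~ 1`.
Finally `LP.Dep.exists_deepAt_iterate` gives `r₀ v` for every `v ∈ Z`; take `r + 1 ≥ r₀ v` for all
`v ∈ Z` (finite) and use `DeepAt.congr`.
-/

set_option autoImplicit false

noncomputable section

namespace Fermat.Agent.S33.SM

open Fermat.Agent.GR Fermat.Agent.LP Fermat.Agent.LP.Dep ModularCurve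

variable {p M0 : ℕ} [Fact p.Prime]

theorem normT_qExpand {Λ : Type*} [CommRing Λ] (ζ : Λˣ) (hζ : ζ ^ p = 1) (x : LaurentSeries Λ) :
    normT p ζ (qExpand Λ p x) = x ^ p := by
  have h1 : ∀ j : ℕ, scaleHom (ζ ^ j) (qExpand Λ p x) = qExpand Λ p x := by
    intro j
    ext n
    rw [scaleHom_coeff]
    by_cases hn : (p : ℤ) ∣ n
    · obtain ⟨k, rfl⟩ := hn
      have h2 : ((ζ ^ j) ^ ((p : ℤ) * k) : Λˣ) = 1 := by
        rw [zpow_mul, zpow_natCast, ← pow_mul, mul_comm, pow_mul, hζ, one_pow, one_zpow]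
      rw [h2, Units.val_one, one_mul]
    · rw [qExpand_coeff_of_not_dvd p _ hn, mul_zero]
  unfold normT
  rw [Finset.prod_congr rfl (fun j _ => h1 j), Finset.prod_const, Finset.card_range, ← map_pow,
    Uop_qExpand]

theorem kummerEquiv_mono {N N' n : ℕ} (h : N ∣ N') {u v : LaurentSeries Qbar}
    (huv : KummerEquiv N n u v) : KummerEquiv N' n u v := by
  obtain ⟨z, hz, hz0, e⟩ := huv
  exact ⟨z, GT.EMB.FF_mono Qbar h hz, hz0, e⟩

theorem trivAt_mono {N N' n : ℕ} (h : N ∣ N') {A : ValuationSubring Qbar} {u : LaurentSeries Qbar}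
    (hu : GS.TrivAt N n A u) : GS.TrivAt N' n A u := by
  obtain ⟨a, b, ha, hb, hpa, hib, hc, hk⟩ := hu
  exact ⟨a, b, GT.EMB.FF_mono Qbar h ha, GT.EMB.FF_mono Qbar h hb, hpa, hib, hc,
    kummerEquiv_mono h hk⟩

theorem kummerEquiv_normT [NeZero (p * M0)] (ζ : Qbarˣ) (hζ : IsPrimitiveRoot ζ p)
    {u v : LaurentSeries Qbar} (h : KummerEquiv (p * M0) p u v) :
    KummerEquiv (p * M0) p (normT p ζ u) (normT p ζ v) := by
  obtain ⟨z, hz, hz0, rfl⟩ := h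
  exact ⟨normT p ζ z, B.normT_mem_FF_Qbar p (Dvd.intro _ rfl) ζ hζ hz,
    ContractQ_normT_ne_zero p ζ hζ hz0,
    by rw [normT_mul p ζ hζ, ContractQ_normT_pow p ζ hζ]⟩

theorem kummerEquiv_iterate_normT [NeZero (p * M0)] (ζ : Qbarˣ) (hζ : IsPrimitiveRoot ζ p) (r : ℕ)
    {u v : LaurentSeries Qbar} (h : KummerEquiv (p * M0) p u v) :
    KummerEquiv (p * M0) p ((normT p ζ)^[r] u) ((normT p ζ)^[r] v) := by
  induction r with
  | zero => exact h
  | succ r ih =>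
    rw [Function.iterate_succ_apply', Function.iterate_succ_apply']
    exact kummerEquiv_normT ζ hζ ih

theorem iterate_normT_mul (ζ : Qbarˣ) (hζ : IsPrimitiveRoot ζ p) (r : ℕ)
    (u v : LaurentSeries Qbar) :
    (normT p ζ)^[r] (u * v) = (normT p ζ)^[r] u * (normT p ζ)^[r] v := by
  induction r with
  | zero => rfl
  | succ r ih =>
    rw [Function.iterate_succ_apply', Function.iterate_succ_apply', Function.iterate_succ_apply',
      ih, normT_mul p ζ hζ]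

theorem iterate_normT_mem [NeZero (p * M0)] (ζ : Qbarˣ) (hζ : IsPrimitiveRoot ζ p) (r : ℕ)
    {u : LaurentSeries Qbar} (hu : u ∈ FF Qbar (p * M0)) (hu0 : u ≠ 0) :
    (normT p ζ)^[r] u ∈ FF Qbar (p * M0) ∧ (normT p ζ)^[r] u ≠ 0 := by
  induction r with
  | zero => exact ⟨hu, hu0⟩
  | succ r ih =>
    rw [Function.iterate_succ_apply']
    exact ⟨B.normT_mem_FF_Qbar p (Dvd.intro _ rfl) ζ hζ ih.1,
      ContractQ_normT_ne_zero p ζ hζ ih.2⟩

theorem H_iterate_normT_pow (ζ : Qbarˣ) (hζ : IsPrimitiveRoot ζ p) (r : ℕ)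
    (u : LaurentSeries Qbar) (n : ℕ) :
    (normT p ζ)^[r] (u ^ n) = ((normT p ζ)^[r] u) ^ n := by
  induction r with
  | zero => rfl
  | succ r ih =>
    rw [Function.iterate_succ_apply', Function.iterate_succ_apply', ih,
      ContractQ_normT_pow p ζ hζ]

theorem exists_chain [NeZero (p * M0)] (ζ : Qbarˣ) (hζ : IsPrimitiveRoot ζ p)
    (Z : Set (LaurentSeries Qbar)) (hZ : ∀ u ∈ Z, u ∈ FF Qbar M0 ∧ u ≠ 0)
    (hsurj : ∀ u ∈ Z, ∃ u' ∈ Z, KummerEquiv M0 p u (heckeMulT p ζ u')) (r : ℕ) :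
    ∀ u ∈ Z, ∃ u' ∈ Z, ∃ v ∈ Z,
      KummerEquiv (p * M0) p (u / qExpand Qbar p u') ((normT p ζ)^[r + 1] v) := by
  have hdvd : M0 ∣ p * M0 := Dvd.intro_left _ rfl
  have hΦ0 : ∀ x : LaurentSeries Qbar, x ≠ 0 → qExpand Qbar p x ≠ 0 := fun x hx h =>
    hx ((map_eq_zero (qExpand Qbar p)).mp h)
  induction r with
  | zero =>
    intro u hu
    obtain ⟨u', hu', z, hz, hz0, e⟩ := hsurj u hu
    refine ⟨u', hu', u', hu', z, GT.EMB.FF_mono Qbar hdvd hz, hz0, ?_⟩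
    have h1 := hΦ0 u' (hZ u' hu').2
    rw [Function.iterate_succ_apply', Function.iterate_zero_apply, div_mul_eq_mul_div, ← e,
      heckeMulT, mul_div_cancel_left₀ _ h1]
  | succ r ih =>
    intro u hu
    obtain ⟨u', hu', v, hv, hk⟩ := ih u hu
    obtain ⟨v', hv', hk'⟩ := hsurj v hv
    refine ⟨u', hu', v', hv', hk.trans ?_⟩
    have h1 := kummerEquiv_iterate_normT ζ hζ (r + 1) (kummerEquiv_mono hdvd hk')
    refine h1.trans (KummerEquiv.symm ?_)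
    obtain ⟨hm, hm0⟩ := iterate_normT_mem ζ hζ r (GT.EMB.FF_mono Qbar hdvd (hZ v' hv').1)
      (hZ v' hv').2
    refine ⟨(normT p ζ)^[r] v', hm, hm0, ?_⟩
    rw [heckeMulT, iterate_normT_mul ζ hζ, Function.iterate_succ_apply (normT p ζ) r,
      normT_qExpand ζ hζ.pow_eq_one, H_iterate_normT_pow ζ hζ,
      ← Function.iterate_succ_apply (normT p ζ) (r + 1), mul_comm]

/-- (H) -/
theorem exists_deep_link [NeZero (p * M0)] {A : ValuationSubring Qbar} (hA : A.LiesOverPrime p)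
    (ζ : Qbarˣ) (hζ : IsPrimitiveRoot ζ p) (Z : Set (LaurentSeries Qbar)) (hfin : Z.Finite)
    (hZ : ∀ u ∈ Z, u ∈ FF Qbar M0 ∧ u ≠ 0) (htriv : ∀ u ∈ Z, GS.TrivAt M0 p A u)
    (hsurj : ∀ u ∈ Z, ∃ u' ∈ Z, KummerEquiv M0 p u (heckeMulT p ζ u')) :
    ∀ u ∈ Z, ∃ u' ∈ Z, DeepAt (p * M0) p A (u / qExpand Qbar p u') := by
  classical
  have hdvd : M0 ∣ p * M0 := Dvd.intro_left _ rfl
  have hex : ∀ v : LaurentSeries Qbar, ∃ r₀ : ℕ, v ∈ Z →
      ∀ r : ℕ, r₀ ≤ r → DeepAt (p * M0) p A ((normT p ζ)^[r] v) := by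
    intro v
    by_cases hv : v ∈ Z
    · obtain ⟨r₀, h⟩ := exists_deepAt_iterate (Dvd.intro _ rfl) hA ζ hζ
        (trivAt_mono hdvd (htriv v hv))
      exact ⟨r₀, fun _ => h⟩
    · exact ⟨0, fun h => absurd h hv⟩
  choose f hf using hex
  intro u hu
  obtain ⟨u', hu', v, hv, hk⟩ := exists_chain ζ hζ Z hZ hsurj (hfin.toFinset.sup f) u hu
  refine ⟨u', hu', DeepAt.congr hk.symm (hf v hv _ ?_)⟩
  have : f v ≤ hfin.toFinset.sup f := Finset.le_sup (f := f) (hfin.mem_toFinset.mpr hv)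
  omega

end Fermat.Agent.S33.SM
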