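import Fermat.Agent.S33.SM.Bridge.Basic
import Fermat.Agent.S33.SM.Conc.Ctx
import Fermat.Agent.GS.Bridge.Gal

/-!
# S33-SM, bridge: construction of the context `Ctx L (RL A L) p M0`

`L` a number field inside `Q̄`, stable under a Frobenius element `σ` at `A`, containing `ζ_p`.
The input `ResAll` is `GS.Inst.res_of_mem` (file `GS/Inst/Data.lean`).

Tools: `GS.frobenius_spec`, `GS.inertia_spec` (`GS/Bridge/Gal.lean`), `GR.E.BR7_mem_nonunits_comap`,
`GR.charP_residueField` (`GR/F/Red.lean`, for the model of the proof of `charP_RL`),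
`GS.nonempty_Qbar_hom`, `GS.Inst.isWq_of_isWQ`, `GS.Inst.isWQ_wQ`.
-/

set_option autoImplicit false
set_option synthInstance.maxHeartbeats 400000

noncomputable section

namespace Fermat.Agent.S33.SM

open Fermat.Agent.GR Fermat.Agent.GR.E Fermat.Agent.GR.D.Vert Fermat.Agent.LP.Dep Fermat.Agent.LP
  ModularCurve

variable {A : ValuationSubring Qbar} {L : IntermediateField ℚ Qbar} {p M0 : ℕ}

theorem charP_RL [Fact p.Prime] (hA : A.LiesOverPrime p) :
    CharP (IsLocalRing.ResidueField (RL A L)) p := by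
  refine charP_residueField (RL A L) ?_
  show (p : L) ∈ (RL A L).nonunits
  rw [BR7_mem_nonunits_comap, map_natCast]
  exact hA

theorem resAut_mem_iff {σ : Qbar ≃ₐ[ℚ] Qbar} (hσL : L.map σ.toAlgHom = L)
    (h : ∀ x, σ x ∈ A ↔ x ∈ A) (x : L) : resAut L σ hσL x ∈ RL A L ↔ x ∈ RL A L := by
  rw [ValuationSubring.mem_comap, ValuationSubring.mem_comap]
  exact h (x : Qbar)

theorem resAut_cong {σ : Qbar ≃ₐ[ℚ] Qbar} (hσL : L.map σ.toAlgHom = L) {c : ℕ}
    (h : ∀ x ∈ A, σ x - x ^ c ∈ A.nonunits) (x : L) (hx : x ∈ RL A L) :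
    resAut L σ hσL x - x ^ c ∈ (RL A L).nonunits := by
  rw [BR7_mem_nonunits_comap, map_sub, map_pow]
  exact h (x : Qbar) hx

/-- the statement of `GS.Inst.res_of_mem` for all number fields. -/
def ResAll (A : ValuationSubring Qbar) (p M0 : ℕ) [NeZero p] : Prop :=
  ∀ (L : IntermediateField ℚ Qbar) [IsDiscreteValuationRing (RL A L)] (ϖ : RL A L),
    Irreducible ϖ → ∀ w : FF L (p * M0) ≃ₐ[L] FF L (p * M0), GS.Inst.IsWq L p M0 w →
      ResHyp (RL A L) p M0 ϖ w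

/-- a `p`-th root of unity of `L` as a unit of `RL A L`. -/
theorem exists_unit_RL (hp : p ≠ 0) {ζ : Qbar} (hζ : IsPrimitiveRoot ζ p) (hζL : ζ ∈ L) :
    ∃ z : (RL A L)ˣ, IsPrimitiveRoot z p ∧ (((z : RL A L) : L) : Qbar) = ζ := by
  have hmem : ∀ ξ : Qbar, ξ ^ p = 1 → ξ ∈ A := by
    intro ξ hξ
    rw [← A.valuation_le_one_iff]
    have h1 : A.valuation ξ ^ p = 1 := by rw [← map_pow, hξ, map_one]
    exact le_of_eq ((pow_eq_one_iff.mp h1).resolve_right hp)
  have hζ0 : ζ ≠ 0 := hζ.ne_zero hp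
  have hζ' : ζ⁻¹ ^ p = 1 := by rw [inv_pow, hζ.pow_eq_one, inv_one]
  let z : (RL A L)ˣ :=
    { val := ⟨⟨ζ, hζL⟩, hmem ζ hζ.pow_eq_one⟩
      inv := ⟨⟨ζ⁻¹, inv_mem hζL⟩, hmem ζ⁻¹ hζ'⟩
      val_inv := by
        apply Subtype.ext
        apply Subtype.ext
        exact mul_inv_cancel₀ hζ0
      inv_val := by
        apply Subtype.ext
        apply Subtype.ext
        exact inv_mul_cancel₀ hζ0 }
  have hcoe : ∀ l : ℕ, ((((z ^ l : (RL A L)ˣ) : RL A L) : L) : Qbar) = ζ ^ l := by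
    intro l
    rw [Units.val_pow_eq_pow_val, SubmonoidClass.coe_pow, SubmonoidClass.coe_pow]
  refine ⟨z, ⟨?_, fun l hl => hζ.dvd_of_pow_eq_one l ?_⟩, rfl⟩
  · apply Units.ext
    apply Subtype.ext
    apply Subtype.ext
    rw [hcoe, hζ.pow_eq_one]
    rfl
  · rw [← hcoe, hl]
    rfl

/-- The context attached to `(A, L, ϖ, ζ, σ)`. -/
theorem exists_ctx [Fact p.Prime] (hM0 : M0 ≠ 0) (hpM : ¬ p ∣ M0) (hA : A.LiesOverPrime p)
    [IsDiscreteValuationRing (RL A L)] (hres : ResAll A p M0) (ϖ : RL A L) (hϖ : Irreducible ϖ)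
    {ζ : Qbar} (hζ : IsPrimitiveRoot ζ p) (hζL : ζ ∈ L) {σ : Qbar ≃ₐ[ℚ] Qbar}
    (hσ : A.IsFrobeniusAt σ p) (hσL : L.map σ.toAlgHom = L) :
    ∃ X : Ctx L (RL A L) p M0, X.ϖ = ϖ ∧ (((X.ζ : RL A L) : L) : Qbar) = ζ := by
  have hp : p.Prime := Fact.out
  obtain ⟨ι0⟩ := GS.nonempty_Qbar_hom
  obtain ⟨z, hz, hzζ⟩ := exists_unit_RL (A := A) (L := L) hp.ne_zero hζ hζL
  have hz1 : (z : RL A L) - 1 ≠ 0 := by
    intro h0
    exact hz.ne_one hp.one_lt (Units.ext (sub_eq_zero.mp h0))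
  obtain ⟨e1, he1⟩ := IsDiscreteValuationRing.associated_pow_irreducible hz1 hϖ
  have hne : NeZero (p * M0) := ⟨mul_ne_zero hp.ne_zero hM0⟩
  have hne0 : NeZero M0 := ⟨hM0⟩
  have hfr := GS.frobenius_spec A hσ
  have hWq : GS.Inst.IsWq L p M0 (GT.EMB.wQ L p M0) :=
    GS.Inst.isWq_of_isWQ (ι0.comp (algebraMap L Qbar)) hp hpM
      (GS.Inst.isWQ_wQ (ι0.comp (algebraMap L Qbar)) hp hpM)
  exact ⟨{ ι := ι0.comp (algebraMap L Qbar)
           ne := hne
           charP := charP_RL hA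
           ϖ := ϖ
           irr := hϖ
           ζ := z
           prim := hz
           e1 := e1
           assoc := he1
           φ := resAut L σ hσL
           φ_mem := resAut_mem_iff hσL hfr.1
           φ_frob := resAut_cong hσL hfr.2
           w := GT.EMB.wQ L p M0
           isWq := hWq
           res := hres L ϖ hϖ _ hWq }, rfl, hzζ⟩

end Fermat.Agent.S33.SM
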