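import Fermat.Agent.S33.SM.Bridge.Basic
import Fermat.Agent.S33.Ram2
import Fermat.Agent.GS.Bridge.Gal
import Fermat.Agent.GR.E.BR5

/-!
# S33-SM, bridge for (S): the field `L ⊆ Fix(I')`

`I' = {τ ∈ I_A : τ ζ = ζ}`.  `fixI A ζ` is its fixed field.

* `map_fixI`: a Frobenius element `σ` (any element of the decomposition group) maps `fixI A ζ` onto
  itself: for `τ ∈ I'`, `σ⁻¹ τ σ ∈ I_A` (the inertia subgroup is normal in the decomposition group: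
  it is a kernel; `inertiaSubgroupIn` is its image in `Gal(Q̄/ℚ)`) and it fixes `ζ` because
  `σ ζ = ζ ^ k` and `τ` fixes `ζ ^ k`.
* `exists_field_S`: `L := normalClosure (L0 ⊔ ℚ(ζ)) ⊓ fixI A ζ`.
* `exists_irreducible_sub_one`: `ζ - 1` is a uniformizer of `A ∩ L` (`S33.Ram_div_sub_one_mem`,
  `S33.Ram_sub_one_mem`, `S33.Ram_sub_one_ne_zero`).
-/

set_option autoImplicit false
set_option synthInstance.maxHeartbeats 400000

noncomputable section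

namespace Fermat.Agent.S33.SM

open Fermat.Agent.GR Fermat.Agent.GR.E ModularCurve

/-- the fixed field of `I' = {τ ∈ I_A : τ ζ = ζ}`. -/
def fixI (A : ValuationSubring Qbar) (ζ : Qbar) : IntermediateField ℚ Qbar where
  carrier := {x | ∀ τ ∈ A.inertiaSubgroupIn ℚ, τ ζ = ζ → τ x = x}
  mul_mem' := fun {a b} ha hb τ hτ h => by rw [map_mul, ha τ hτ h, hb τ hτ h]
  add_mem' := fun {a b} ha hb τ hτ h => by rw [map_add, ha τ hτ h, hb τ hτ h]
  algebraMap_mem' := fun r τ _ _ => τ.commutes r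
  inv_mem' := fun a ha τ hτ h => by rw [map_inv₀, ha τ hτ h]

theorem mem_fixI {A : ValuationSubring Qbar} {ζ x : Qbar} :
    x ∈ fixI A ζ ↔ ∀ τ ∈ A.inertiaSubgroupIn ℚ, τ ζ = ζ → τ x = x := Iff.rfl

variable {A : ValuationSubring Qbar} {p : ℕ}

/-- the inertia group is normalised by the decomposition group. -/
theorem conj_mem_inertia {σ τ : Qbar ≃ₐ[ℚ] Qbar} (hσ : σ ∈ A.decompositionSubgroup ℚ)
    (hτ : τ ∈ A.inertiaSubgroupIn ℚ) :
    σ⁻¹ * τ * σ ∈ A.inertiaSubgroupIn ℚ ∧ σ * τ * σ⁻¹ ∈ A.inertiaSubgroupIn ℚ := by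
  obtain ⟨g, hg, rfl⟩ := hτ
  have hn : (A.inertiaSubgroup ℚ).Normal := by
    unfold ValuationSubring.inertiaSubgroup
    exact MonoidHom.normal_ker _
  constructor
  · refine ⟨(⟨σ, hσ⟩ : A.decompositionSubgroup ℚ)⁻¹ * g * ⟨σ, hσ⟩, ?_, rfl⟩
    have := hn.conj_mem g hg (⟨σ, hσ⟩ : A.decompositionSubgroup ℚ)⁻¹
    rwa [inv_inv] at this
  · exact ⟨(⟨σ, hσ⟩ : A.decompositionSubgroup ℚ) * g * (⟨σ, hσ⟩ : A.decompositionSubgroup ℚ)⁻¹,
      hn.conj_mem g hg _, rfl⟩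

theorem SField_fix_root (hp : p ≠ 0) {ζ : Qbar} (hζ : IsPrimitiveRoot ζ p)
    (ρ τ : Qbar ≃ₐ[ℚ] Qbar) (hτ : τ ζ = ζ) : τ (ρ ζ) = ρ ζ := by
  haveI : NeZero p := ⟨hp⟩
  have h1 : (ρ ζ) ^ p = 1 := by rw [← map_pow, hζ.pow_eq_one, map_one]
  obtain ⟨k, -, hk⟩ := hζ.eq_pow_of_pow_eq_one h1
  rw [← hk, map_pow, hτ]

theorem SField_map_mem (hp : p ≠ 0) {ζ : Qbar} (hζ : IsPrimitiveRoot ζ p) {σ : Qbar ≃ₐ[ℚ] Qbar}
    (hσ : σ ∈ A.decompositionSubgroup ℚ) {y : Qbar} (hy : y ∈ fixI A ζ) : σ y ∈ fixI A ζ := by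
  intro τ hτ hτζ
  have h1 := (conj_mem_inertia hσ hτ).1
  have h2 : (σ⁻¹ * τ * σ) ζ = ζ := by
    rw [AlgEquiv.mul_apply, AlgEquiv.mul_apply, SField_fix_root hp hζ σ τ hτζ]
    exact AlgEquiv.symm_apply_apply σ ζ
  have h3 := hy _ h1 h2
  rw [AlgEquiv.mul_apply, AlgEquiv.mul_apply] at h3
  have h4 := congrArg σ h3
  rw [show σ (σ⁻¹ (τ (σ y))) = τ (σ y) from AlgEquiv.apply_symm_apply σ _] at h4
  exact h4

theorem SField_symm_mem (hp : p ≠ 0) {ζ : Qbar} (hζ : IsPrimitiveRoot ζ p) {σ : Qbar ≃ₐ[ℚ] Qbar}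
    (hσ : σ ∈ A.decompositionSubgroup ℚ) {x : Qbar} (hx : x ∈ fixI A ζ) : σ⁻¹ x ∈ fixI A ζ := by
  intro τ hτ hτζ
  have h1 := (conj_mem_inertia hσ hτ).2
  have h2 : (σ * τ * σ⁻¹) ζ = ζ := by
    rw [AlgEquiv.mul_apply, AlgEquiv.mul_apply, SField_fix_root hp hζ σ⁻¹ τ hτζ]
    exact AlgEquiv.apply_symm_apply σ ζ
  have h3 := hx _ h1 h2
  rw [AlgEquiv.mul_apply, AlgEquiv.mul_apply] at h3
  have h4 : σ⁻¹ (σ (τ (σ⁻¹ x))) = σ⁻¹ x := by rw [h3]
  rw [show σ⁻¹ (σ (τ (σ⁻¹ x))) = τ (σ⁻¹ x) from AlgEquiv.symm_apply_apply σ _] at h4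
  exact h4

theorem map_fixI (hp : p ≠ 0) {ζ : Qbar} (hζ : IsPrimitiveRoot ζ p) {σ : Qbar ≃ₐ[ℚ] Qbar}
    (hσ : σ ∈ A.decompositionSubgroup ℚ) : (fixI A ζ).map σ.toAlgHom = fixI A ζ := by
  ext x
  rw [IntermediateField.mem_map]
  constructor
  · rintro ⟨y, hy, rfl⟩
    exact SField_map_mem hp hζ hσ hy
  · intro hx
    exact ⟨σ⁻¹ x, SField_symm_mem hp hζ hσ hx, AlgEquiv.apply_symm_apply σ x⟩

theorem exists_field_S (hp : p ≠ 0) {ζ : Qbar} (hζ : IsPrimitiveRoot ζ p) {σ : Qbar ≃ₐ[ℚ] Qbar}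
    (hσ : σ ∈ A.decompositionSubgroup ℚ) (L0 : IntermediateField ℚ Qbar) [FiniteDimensional ℚ L0]
    (hL0 : L0 ≤ fixI A ζ) :
    ∃ L : IntermediateField ℚ Qbar, FiniteDimensional ℚ L ∧ L0 ≤ L ∧ ζ ∈ L ∧ L ≤ fixI A ζ ∧
      L.map σ.toAlgHom = L := by
  have halg : Algebra.IsAlgebraic ℚ Qbar := AlgebraicClosure.isAlgebraic ℚ
  have hcl : IsAlgClosure ℚ Qbar := ⟨inferInstance, halg⟩
  haveI : Normal ℚ Qbar := IsAlgClosure.normal ℚ Qbar
  haveI : FiniteDimensional ℚ (IntermediateField.adjoin ℚ ({ζ} : Set Qbar)) :=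
    IntermediateField.adjoin.finiteDimensional
      ((AlgebraicClosure.isAlgebraic ℚ).isAlgebraic ζ).isIntegral
  haveI : FiniteDimensional ℚ (L0 ⊔ IntermediateField.adjoin ℚ ({ζ} : Set Qbar) :
      IntermediateField ℚ Qbar) := IntermediateField.finiteDimensional_sup _ _
  obtain ⟨K, hK⟩ : ∃ K : IntermediateField ℚ Qbar, K = IntermediateField.normalClosure ℚ
      (L0 ⊔ IntermediateField.adjoin ℚ ({ζ} : Set Qbar) : IntermediateField ℚ Qbar) Qbar :=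
    ⟨_, rfl⟩
  have hKfin : FiniteDimensional ℚ K := by rw [hK]; infer_instance
  have hKnor : Normal ℚ K := by rw [hK]; exact normalClosure.normal ℚ _ Qbar
  have hle : (L0 ⊔ IntermediateField.adjoin ℚ ({ζ} : Set Qbar) : IntermediateField ℚ Qbar) ≤ K := by
    rw [hK]
    exact IntermediateField.le_normalClosure _
  have hKmap : ∀ ρ : Qbar ≃ₐ[ℚ] Qbar, ∀ x ∈ K, ρ x ∈ K := by
    intro ρ x hx
    have h1 := (IntermediateField.normal_iff_forall_map_le'.mp hKnor) ρ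
    exact h1 ((IntermediateField.mem_map _).mpr ⟨x, hx, rfl⟩)
  have hζK : ζ ∈ K := hle ((le_sup_right : _ ≤ (L0 ⊔ IntermediateField.adjoin ℚ ({ζ} : Set Qbar) :
    IntermediateField ℚ Qbar)) (IntermediateField.mem_adjoin_simple_self ℚ ζ))
  refine ⟨K ⊓ fixI A ζ, ?_, ?_, ?_, inf_le_right, ?_⟩
  · exact FiniteDimensional.of_injective
      (IntermediateField.inclusion (inf_le_left : K ⊓ fixI A ζ ≤ K)).toLinearMap
      (IntermediateField.inclusion_injective (inf_le_left : K ⊓ fixI A ζ ≤ K))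
  · exact le_inf (le_sup_left.trans hle) hL0
  · exact IntermediateField.mem_inf.mpr ⟨hζK, fun τ _ h => h⟩
  · ext x
    rw [IntermediateField.mem_map]
    constructor
    · rintro ⟨y, hy, rfl⟩
      obtain ⟨hy1, hy2⟩ := IntermediateField.mem_inf.mp hy
      exact IntermediateField.mem_inf.mpr ⟨hKmap σ y hy1, SField_map_mem hp hζ hσ hy2⟩
    · intro hx
      obtain ⟨hx1, hx2⟩ := IntermediateField.mem_inf.mp hx
      exact ⟨σ⁻¹ x, IntermediateField.mem_inf.mpr ⟨hKmap σ⁻¹ x hx1,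
        SField_symm_mem hp hζ hσ hx2⟩, AlgEquiv.apply_symm_apply σ x⟩

theorem SField_not_isUnit_iff {L : IntermediateField ℚ Qbar} (a : RL A L) :
    ¬ IsUnit a ↔ (((a : RL A L) : L) : Qbar) ∈ A.nonunits := by
  rw [← mem_nonunits_iff, ← IsLocalRing.mem_maximalIdeal, ← ValuationSubring.coe_mem_nonunits_iff,
    BR7_mem_nonunits_comap]
  rfl

theorem exists_irreducible_sub_one (hp : p.Prime) (hA : A.LiesOverPrime p) {ζ : Qbar}
    (hζ : IsPrimitiveRoot ζ p) {L : IntermediateField ℚ Qbar} (hζL : ζ ∈ L) (hL : L ≤ fixI A ζ) :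
    ∃ ϖ : RL A L, Irreducible ϖ ∧ ((ϖ : L) : Qbar) = ζ - 1 := by
  have hnon := S33.Ram_sub_one_mem A hp hA hζ
  have hne := S33.Ram_sub_one_ne_zero hp hζ
  have hmemL : ζ - 1 ∈ L := sub_mem hζL (one_mem L)
  have hmemA : (⟨ζ - 1, hmemL⟩ : L) ∈ RL A L := A.nonunits_subset hnon
  refine ⟨⟨⟨ζ - 1, hmemL⟩, hmemA⟩, ?_, rfl⟩
  rw [irreducible_iff]
  constructor
  · rw [SField_not_isUnit_iff]
    exact hnon
  · intro a b hab
    by_contra hcon
    push Not at hcon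
    obtain ⟨ha, hb⟩ := hcon
    rw [SField_not_isUnit_iff] at ha hb
    have hab' : ζ - 1 = (((a : RL A L) : L) : Qbar) * (((b : RL A L) : L) : Qbar) :=
      congrArg (fun t : RL A L => (((t : RL A L) : L) : Qbar)) hab
    have h1 := S33.Ram_div_sub_one_mem A hp hA hζ _ ha (fun τ hτ h => hL (a : L).2 τ hτ h)
    have h2 : (1 : Qbar) ∈ A.nonunits := by
      have e : (1 : Qbar) = (((b : RL A L) : L) : Qbar) * ((((a : RL A L) : L) : Qbar) / (ζ - 1)) := by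
        rw [mul_div_assoc', mul_comm, ← hab', div_self hne]
      rw [e, ValuationSubring.mem_nonunits_iff, map_mul]
      exact mul_lt_one_of_lt_of_le ((ValuationSubring.mem_nonunits_iff _).mp hb)
        ((A.valuation_le_one_iff _).2 h1)
    rw [ValuationSubring.mem_nonunits_iff, map_one] at h2
    exact lt_irrefl _ h2

end Fermat.Agent.S33.SM
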